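import Fermat.Agent.S23.Defs

/-!
The subalgebra of "nice" functions on the upper half plane (holomorphic, `1`-periodic, bounded
at `i∞`) and the `q`-expansion as an injective algebra homomorphism on it.
-/

set_option autoImplicit false

namespace Fermat.Agent.S23

open UpperHalfPlane ModularForm Function
open scoped MatrixGroups Manifold

/-- Holomorphic, `1`-periodic functions on `ℍ` which are bounded at `i∞`. -/
def Nice : Subalgebra ℂ (ℍ → ℂ) where
  carrier := {F | Periodic (F ∘ ofComplex) 1 ∧ MDiff F ∧ IsBoundedAtImInfty F}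
  mul_mem' := by
    rintro F G ⟨hF1, hF2, hF3⟩ ⟨hG1, hG2, hG3⟩
    exact ⟨hF1.mul hG1, hF2.mul hG2, hF3.mul hG3⟩
  add_mem' := by
    rintro F G ⟨hF1, hF2, hF3⟩ ⟨hG1, hG2, hG3⟩
    exact ⟨hF1.add hG1, hF2.add hG2, hF3.add hG3⟩
  algebraMap_mem' := by
    intro c
    refine ⟨fun z => rfl, fun _ => mdifferentiableAt_const, ?_⟩
    exact Filter.const_boundedAtFilter _ c

lemma mem_Nice {F : ℍ → ℂ} :
    F ∈ Nice ↔ Periodic (F ∘ ofComplex) 1 ∧ MDiff F ∧ IsBoundedAtImInfty F := Iff.rfl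

lemma Nice.analyticAt {F : ℍ → ℂ} (hF : F ∈ Nice) : AnalyticAt ℂ (cuspFunction 1 F) 0 :=
  analyticAt_cuspFunction_zero one_pos hF.1 hF.2.1 hF.2.2

/-- A modular form for a group containing the translation by `1` is nice. -/
lemma coe_mem_Nice {Γ : Subgroup (GL (Fin 2) ℝ)} {k : ℤ} {F : Type*} [FunLike F ℍ ℂ]
    [ModularFormClass F Γ k] (h1 : (1 : ℝ) ∈ Γ.strictPeriods) (f : F) : (⇑f : ℍ → ℂ) ∈ Nice :=
  have : Fact (IsCusp OnePoint.infty Γ) := ⟨Γ.isCusp_of_mem_strictPeriods one_pos h1⟩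
  ⟨SlashInvariantFormClass.periodic_comp_ofComplex f h1, ModularFormClass.holo f,
    ModularFormClass.bdd_at_infty f⟩

/-- The `q`-expansion as an algebra homomorphism on nice functions. -/
noncomputable def qHom : Nice →ₐ[ℂ] PowerSeries ℂ where
  toFun F := qExpansion 1 (F : ℍ → ℂ)
  map_one' := qExpansion_one 1
  map_mul' F G := qExpansion_mul (Nice.analyticAt F.2) (Nice.analyticAt G.2)
  map_zero' := qExpansion_zero 1
  map_add' F G := qExpansion_add (Nice.analyticAt F.2) (Nice.analyticAt G.2)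
  commutes' c := by
    have h : ((algebraMap ℂ Nice c : Nice) : ℍ → ℂ) = c • (1 : ℍ → ℂ) := by
      ext z; simp [Algebra.algebraMap_eq_smul_one]
    have h1 : AnalyticAt ℂ (cuspFunction 1 (1 : ℍ → ℂ)) 0 := Nice.analyticAt (one_mem Nice)
    show qExpansion 1 ((algebraMap ℂ Nice c : Nice) : ℍ → ℂ) = _
    rw [h, qExpansion_smul h1, qExpansion_one, Algebra.algebraMap_eq_smul_one]

@[simp] lemma qHom_apply (F : Nice) : qHom F = qExpansion 1 (F : ℍ → ℂ) := rfl

lemma qHom_injective : Function.Injective qHom := by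
  rw [injective_iff_map_eq_zero]
  intro F hF
  have := (qExpansion_eq_zero_iff one_pos F.2.1 F.2.2.1 F.2.2.2).mp hF
  exact Subtype.ext this

/-- Two nice functions with the same `q`-expansion agree. -/
lemma Nice.eq_of_qExpansion_eq {F G : ℍ → ℂ} (hF : F ∈ Nice) (hG : G ∈ Nice)
    (h : qExpansion 1 F = qExpansion 1 G) : F = G :=
  congrArg Subtype.val (qHom_injective (a₁ := ⟨F, hF⟩) (a₂ := ⟨G, hG⟩) h)

end Fermat.Agent.S23
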