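import Fermat.Agent.S23.Defs

set_option autoImplicit false

namespace Fermat.Agent.S23

open UpperHalfPlane ModularForm CongruenceSubgroup
open scoped MatrixGroups Manifold

open EisensteinSeries ModularFormClass

/-- The subring of complex power series with rational integer coefficients. -/
noncomputable def intPS : Subring (PowerSeries ℂ) := (PowerSeries.map (Int.castRingHom ℂ)).range

theorem mem_intPS_iff (φ : PowerSeries ℂ) : φ ∈ intPS ↔ ∀ n : ℕ, ∃ a : ℤ, φ.coeff n = (a : ℂ) := by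
  constructor
  · rintro ⟨ψ, rfl⟩ n
    exact ⟨ψ.coeff n, by simp⟩
  · intro h
    choose a ha using h
    exact ⟨PowerSeries.mk a, by ext n; simp [ha]⟩

theorem isIntQ_iff (F : ℍ → ℂ) : IsIntQ F ↔ qExpansion 1 F ∈ intPS :=
  (mem_intPS_iff _).symm

theorem exists_int_smul_E {k : ℕ} (hk : 3 ≤ k) (hk2 : Even k) :
    ∃ d : ℤ, d ≠ 0 ∧ IsIntQ (((d : ℂ) • E hk : ModularForm 𝒮ℒ k) : ℍ → ℂ) := by
  set r : ℚ := -(2 * k / bernoulli k) with hr
  refine ⟨r.den, by exact_mod_cast r.den_ne_zero, fun m => ?_⟩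
  rw [FunLike.coe_smul, ModularForm.qExpansion_smul one_pos one_mem_strictPeriods_SL,
    PowerSeries.coeff_smul, E_qExpansion_coeff hk hk2]
  have hrc : (-(2 * k / bernoulli k : ℂ)) = (r : ℂ) := by
    rw [hr]; push_cast; ring
  rw [hrc]
  split_ifs with hm
  · exact ⟨r.den, by simp⟩
  · refine ⟨r.num * (ArithmeticFunction.sigma (k - 1) m : ℕ), ?_⟩
    have h1 : ((r.den : ℤ) : ℂ) * (r : ℂ) = (r.num : ℂ) := by
      have := Rat.den_mul_eq_num r
      exact_mod_cast congrArg (Rat.cast : ℚ → ℂ) this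
    rw [smul_eq_mul, ← mul_assoc, h1]
    push_cast
    ring

theorem isIntQ_E₄ : IsIntQ (E₄ : ℍ → ℂ) := by
  intro m
  rw [E_qExpansion_coeff _ ⟨2, rfl⟩, show bernoulli 4 = -1 / 30 by decide +kernel]
  split_ifs with hm
  · exact ⟨1, by simp⟩
  · exact ⟨240 * (ArithmeticFunction.sigma (4 - 1) m : ℕ), by push_cast; norm_num⟩

theorem isIntQ_E₆ : IsIntQ (E₆ : ℍ → ℂ) := by
  intro m
  rw [E_qExpansion_coeff _ ⟨3, rfl⟩, show bernoulli 6 = 1 / 42 by decide +kernel]
  split_ifs with hm
  · exact ⟨1, by simp⟩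
  · exact ⟨-504 * (ArithmeticFunction.sigma (6 - 1) m : ℕ), by push_cast; norm_num⟩

/-- `E₄³ - E₆² = 1728 Δ` as a modular form of weight `12`. -/
noncomputable def D12 : ModularForm 𝒮ℒ 12 :=
  ModularForm.mcast (by decide) (E₄.pow 3) - ModularForm.mcast (by decide) (E₆.pow 2)

theorem D12_apply (z : ℍ) : D12 z = 1728 * ModularForm.discriminant z := by
  rw [discriminant_eq_E₄_cube_sub_E₆_sq]
  simp only [D12, coe_mcast, coe_pow, sub_apply, Pi.pow_apply]
  ring

theorem isIntQ_D12 : IsIntQ (D12 : ℍ → ℂ) := by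
  rw [isIntQ_iff]
  have : qExpansion 1 D12 = qExpansion 1 E₄ ^ 3 - qExpansion 1 E₆ ^ 2 := by
    simp only [D12, FunLike.coe_sub, coe_mcast,
      ModularForm.qExpansion_sub one_pos one_mem_strictPeriods_SL,
      ModularForm.qExpansion_pow one_pos one_mem_strictPeriods_SL]
  rw [this]
  exact sub_mem (pow_mem ((isIntQ_iff _).mp isIntQ_E₄) 3) (pow_mem ((isIntQ_iff _).mp isIntQ_E₆) 2)

/-- Multiplication by `D12`. -/
noncomputable def mulD12 (k : ℤ) : ModularForm 𝒮ℒ (k - 12) →ₗ[ℂ] ModularForm 𝒮ℒ k where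
  toFun G := ModularForm.mcast (by ring) (D12.mul G)
  map_add' G H := by
    ext z
    simp [mul_add]
  map_smul' c G := by
    ext z
    simp
    ring

theorem mulD12_apply (k : ℤ) (G : ModularForm 𝒮ℒ (k - 12)) (z : ℍ) :
    mulD12 k G z = D12 z * G z := rfl

theorem isIntQ_mulD12 (k : ℤ) (G : ModularForm 𝒮ℒ (k - 12)) (hG : IsIntQ G) :
    IsIntQ (mulD12 k G) := by
  rw [isIntQ_iff] at hG ⊢
  have : qExpansion 1 (mulD12 k G) = qExpansion 1 D12 * qExpansion 1 G :=
    ModularForm.qExpansion_mul one_pos one_mem_strictPeriods_SL D12 G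
  rw [this]
  exact mul_mem ((isIntQ_iff _).mp isIntQ_D12) hG

theorem intSpanMF_levelOne (k : ℤ) : intSpanMF 𝒮ℒ k = ⊤ := by
  induction' hn : k.toNat using Nat.strong_induction_on with n ih generalizing k
  rw [eq_top_iff]
  rintro F -
  rcases lt_or_ge k 0 with hk | hk
  · have : F = 0 := rank_zero_iff_forall_zero.mp (levelOne_neg_weight_rank_zero hk) F
    rw [this]; exact zero_mem _
  rcases Int.even_or_odd k with hev | hodd
  swap
  · rw [levelOne_odd_weight_eq_zero hodd F]; exact zero_mem _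
  have hcases : k = 0 ∨ k = 2 ∨ 4 ≤ k := by
    obtain ⟨m, rfl⟩ := hev
    omega
  rcases hcases with rfl | rfl | h4
  · obtain ⟨c, hc⟩ := levelOne_weight_zero_const F
    have hF : F = c • (1 : ModularForm 𝒮ℒ 0) := by
      ext z
      simp [hc]
    rw [hF]
    refine Submodule.smul_mem _ _ (Submodule.subset_span ?_)
    intro m
    rw [ModularForm.qExpansion_one]
    by_cases hm : m = 0
    · exact ⟨1, by simp [hm]⟩
    · exact ⟨0, by simp [PowerSeries.coeff_one, hm]⟩
  · have : F = 0 := rank_zero_iff_forall_zero.mp levelOne_weight_two_rank_zero F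
    rw [this]; exact zero_mem _
  · lift k to ℕ using hk
    have hev' : Even k := by exact_mod_cast hev
    have h3 : 3 ≤ k := by omega
    set a0 := (qExpansion 1 F).coeff 0 with ha0
    set F' : ModularForm 𝒮ℒ k := F - a0 • E h3 with hF'
    have h0 : (qExpansion 1 F').coeff 0 = 0 := by
      rw [hF', FunLike.coe_sub, ModularForm.qExpansion_sub one_pos one_mem_strictPeriods_SL,
        FunLike.coe_smul, ModularForm.qExpansion_smul one_pos one_mem_strictPeriods_SL, map_sub,
        PowerSeries.coeff_smul, E_qExpansion_coeff_zero h3 hev', smul_eq_mul, mul_one, sub_self]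
    set G := CuspForm.discriminantEquiv (toCuspForm F' h0) with hG
    have hGmem : G ∈ intSpanMF 𝒮ℒ ((k : ℤ) - 12) := by
      rw [ih ((k : ℤ) - 12).toNat (by omega) _ rfl]
      trivial
    have hF'eq : F' = (1 / 1728 : ℂ) • mulD12 k G := by
      ext z
      have h1 := discriminant_mul_discriminantEquiv_apply (toCuspForm F' h0) z
      rw [toCuspForm_apply] at h1
      rw [ModularForm.smul_apply, mulD12_apply, D12_apply, ← h1, smul_eq_mul]
      ring
    have hmul : mulD12 k G ∈ intSpanMF 𝒮ℒ (k : ℤ) := by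
      have hle : (intSpanMF 𝒮ℒ ((k : ℤ) - 12)).map (mulD12 k) ≤ intSpanMF 𝒮ℒ (k : ℤ) := by
        rw [intSpanMF, Submodule.map_span_le]
        intro g hg
        exact Submodule.subset_span (isIntQ_mulD12 k g hg)
      exact hle (Submodule.mem_map_of_mem hGmem)
    have hE : E h3 ∈ intSpanMF 𝒮ℒ (k : ℤ) := by
      obtain ⟨d, hd, hdE⟩ := exists_int_smul_E h3 hev'
      have : E h3 = (1 / (d : ℂ)) • ((d : ℂ) • E h3) := by
        rw [smul_smul, one_div, inv_mul_cancel₀ (by exact_mod_cast hd), one_smul]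
      rw [this]
      exact Submodule.smul_mem _ _ (Submodule.subset_span hdE)
    have : F = F' + a0 • E h3 := by rw [hF']; abel
    rw [this, hF'eq]
    exact add_mem (Submodule.smul_mem _ _ hmul) (Submodule.smul_mem _ _ hE)

end Fermat.Agent.S23
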