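import Fermat.Agent.S23.Cramer
import Fermat.Agent.S23.LevelOne
import Fermat.Prelude.Thm_CongruenceSubgroup_one_mem_strictPeriods_Gamma0

/-!
Part F, separation half: the stabiliser of `E₄ ∣ diag(N,1)` in `SL(2, ℤ)` lies in `Γ₀(N)`.
-/

set_option autoImplicit false

namespace Fermat.Agent.S23

open UpperHalfPlane ModularForm CongruenceSubgroup Filter Topology Function
open scoped MatrixGroups Manifold

lemma sep_nice_tendsto {F : ℍ → ℂ} (hF : F ∈ Nice) :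
    Tendsto F atImInfty (𝓝 ((qExpansion 1 F).coeff 0)) := by
  have h1 : (qExpansion 1 F).coeff 0 = cuspFunction 1 F 0 := by simp [qExpansion_coeff]
  rw [h1]
  have h2 := (Nice.analyticAt hF).continuousAt.tendsto.comp (qParam_tendsto_atImInfty one_pos)
  refine h2.congr fun τ => ?_
  exact eq_cuspFunction τ one_ne_zero hF.1

lemma sep_E₄_tendsto : Tendsto (⇑E₄ : ℍ → ℂ) atImInfty (𝓝 1) := by
  have := sep_nice_tendsto (coe_mem_Nice one_mem_strictPeriods_SL E₄)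
  rwa [EisensteinSeries.E_qExpansion_coeff_zero _ ⟨2, rfl⟩] at this

/-- The limit at `i∞` of `E₄ ∣ β` for an upper triangular `β` of positive determinant. -/
lemma sep_tendsto (β : GL (Fin 2) ℝ) (h10 : β 1 0 = 0) (hdet : 0 < β.det.val) :
    Tendsto ((⇑E₄ : ℍ → ℂ) ∣[(4 : ℤ)] β) atImInfty
      (𝓝 (((|β.det.val| : ℝ) : ℂ) ^ (3 : ℤ) * ((β 1 1 : ℝ) : ℂ) ^ (-4 : ℤ))) := by
  have h1 : ∀ z : ℍ, ((⇑E₄ : ℍ → ℂ) ∣[(4 : ℤ)] β) z =
      E₄ (β • z) * ((|β.det.val| : ℝ) : ℂ) ^ (3 : ℤ) * ((β 1 1 : ℝ) : ℂ) ^ (-4 : ℤ) := by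
    intro z
    rw [slash_apply]
    have hσ : ∀ u : ℂ, σ β u = u := by
      intro u
      have hd : 0 < (β : Matrix (Fin 2) (Fin 2) ℝ).det := hdet
      simp [σ, hd]
    have hden : denom β z = ((β 1 1 : ℝ) : ℂ) := by simp [denom, h10]
    rw [hσ, hden]
    norm_num
  have h2 : Tendsto (fun z : ℍ => E₄ (β • z)) atImInfty (𝓝 1) :=
    sep_E₄_tendsto.comp (tendsto_smul_atImInfty h10)
  have h3 := (h2.mul_const (((|β.det.val| : ℝ) : ℂ) ^ (3 : ℤ))).mul_const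
    (((β 1 1 : ℝ) : ℂ) ^ (-4 : ℤ))
  rw [one_mul] at h3
  exact h3.congr fun z => (h1 z).symm

/-- Separation: the stabiliser of `E₄ ∣ diag(N,1)` in `SL(2, ℤ)` is contained in `Γ₀(N)`. -/
theorem sep_separation (N : ℕ) [NeZero N] (α : GL (Fin 2) ℝ)
    (hα : (α : Matrix (Fin 2) (Fin 2) ℝ) = !![(N : ℝ), 0; 0, 1]) (γ : SL(2, ℤ))
    (h : ((⇑E₄ : ℍ → ℂ) ∣[(4 : ℤ)] α) ∣[(4 : ℤ)] γ = (⇑E₄ : ℍ → ℂ) ∣[(4 : ℤ)] α) :
    γ ∈ Gamma0 N := by
  have hN0 : (N : ℤ) ≠ 0 := by exact_mod_cast NeZero.ne N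
  have hNpos : (0 : ℝ) < N := by exact_mod_cast Nat.pos_of_ne_zero (NeZero.ne N)
  have hdetγ : γ 0 0 * γ 1 1 - γ 0 1 * γ 1 0 = 1 := by
    have := γ.det_coe
    rwa [Matrix.det_fin_two] at this
  -- the gcd decomposition of the first column of `α γ`
  have hgpos : 0 < Int.gcd (N * γ 0 0) (γ 1 0) := by
    rw [Int.gcd_pos_iff]
    by_contra hcon
    push Not at hcon
    have h00 : γ 0 0 = 0 := by
      rcases mul_eq_zero.mp hcon.1 with h' | h'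
      · exact absurd h' hN0
      · exact h'
    rw [h00, hcon.2] at hdetγ
    simp at hdetγ
  obtain ⟨p, q, hpq, hp, hq⟩ := Int.exists_gcd_one hgpos
  set d0 : ℤ := (Int.gcd (N * γ 0 0) (γ 1 0) : ℤ) with hd0
  obtain ⟨τ, hτ0, hτ1⟩ := (Int.isCoprime_iff_gcd_eq_one.mpr hpq).exists_SL2_col 0
  set t : ℤ := p * γ 1 1 - q * N * γ 0 1 with ht
  have hd0t : d0 * t = N := by
    rw [ht]
    linear_combination (γ 1 1) * (-hp) + (N * γ 0 1) * hq + N * hdetγ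
  -- the upper triangular matrix `β`
  set β : GL (Fin 2) ℝ := (Matrix.SpecialLinearGroup.mapGL ℝ τ⁻¹) * α *
    (Matrix.SpecialLinearGroup.mapGL ℝ γ) with hβ
  have hτinv : ∀ i j, ((Matrix.SpecialLinearGroup.mapGL ℝ τ⁻¹ : GL (Fin 2) ℝ) :
      Matrix (Fin 2) (Fin 2) ℝ) i j = (((τ⁻¹ : SL(2, ℤ)) i j : ℤ) : ℝ) := fun i j => rfl
  have hγc : ∀ i j, ((Matrix.SpecialLinearGroup.mapGL ℝ γ : GL (Fin 2) ℝ) :
      Matrix (Fin 2) (Fin 2) ℝ) i j = ((γ i j : ℤ) : ℝ) := fun i j => rfl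
  have hi10 : ((τ⁻¹ : SL(2, ℤ)) 1 0 : ℤ) = -q := by
    rw [Matrix.SpecialLinearGroup.SL2_inv_expl]; simp [hτ1]
  have hi11 : ((τ⁻¹ : SL(2, ℤ)) 1 1 : ℤ) = p := by
    rw [Matrix.SpecialLinearGroup.SL2_inv_expl]; simp [hτ0]
  have hβ10 : β 1 0 = 0 := by
    show (β : Matrix (Fin 2) (Fin 2) ℝ) 1 0 = 0
    simp only [hβ, Matrix.GeneralLinearGroup.coe_mul, Matrix.mul_apply, Fin.sum_univ_two, hα,
      hτinv, hγc, hi10, hi11]
    simp only [Matrix.of_apply, Matrix.cons_val', Matrix.cons_val_zero, Matrix.cons_val_one,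
      Matrix.cons_val_fin_one]
    have : (-q * N * γ 0 0 + p * γ 1 0 : ℤ) = 0 := by
      linear_combination (-q) * hp + p * hq
    have h2 := congrArg (fun u : ℤ => (u : ℝ)) this
    push_cast at h2 ⊢
    linear_combination h2
  have hβ11 : β 1 1 = (t : ℝ) := by
    show (β : Matrix (Fin 2) (Fin 2) ℝ) 1 1 = (t : ℝ)
    simp only [hβ, Matrix.GeneralLinearGroup.coe_mul, Matrix.mul_apply, Fin.sum_univ_two, hα,
      hτinv, hγc, hi10, hi11]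
    simp only [Matrix.of_apply, Matrix.cons_val', Matrix.cons_val_zero, Matrix.cons_val_one,
      Matrix.cons_val_fin_one]
    rw [ht]; push_cast; ring
  have hαdet : α.det.val = N := by
    show (α : Matrix (Fin 2) (Fin 2) ℝ).det = N
    simp [hα, Matrix.det_fin_two]
  have hβdet : β.det.val = N := by
    have h1 : ∀ g : SL(2, ℤ), (Matrix.SpecialLinearGroup.mapGL ℝ g : GL (Fin 2) ℝ).det = 1 := by
      intro g; simp
    rw [hβ, map_mul, map_mul, h1, h1, one_mul, mul_one, hαdet]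
  -- the two limits
  have hslash : ((⇑E₄ : ℍ → ℂ) ∣[(4 : ℤ)] α) ∣[(4 : ℤ)] γ = (⇑E₄ : ℍ → ℂ) ∣[(4 : ℤ)] β := by
    have hE : (⇑E₄ : ℍ → ℂ) ∣[(4 : ℤ)] (Matrix.SpecialLinearGroup.mapGL ℝ τ⁻¹ : GL (Fin 2) ℝ) = ⇑E₄ :=
      E₄.slash_action_eq' _ ⟨τ⁻¹, rfl⟩
    rw [hβ, SlashAction.slash_mul, SlashAction.slash_mul, hE]
    rfl
  have hl1 := sep_tendsto β hβ10 (by rw [hβdet]; exact hNpos)
  have hl2 := sep_tendsto α (by show (α : Matrix (Fin 2) (Fin 2) ℝ) 1 0 = 0; simp [hα])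
    (by rw [hαdet]; exact hNpos)
  rw [← hslash, h] at hl1
  have hlim := tendsto_nhds_unique hl1 hl2
  have hα11 : α 1 1 = 1 := by show (α : Matrix (Fin 2) (Fin 2) ℝ) 1 1 = 1; simp [hα]
  rw [hβdet, hαdet, hβ11, hα11] at hlim
  have hNc : (((|(N : ℝ)| : ℝ) : ℂ)) ^ (3 : ℤ) ≠ 0 := by
    apply zpow_ne_zero
    simp [NeZero.ne N]
  have h4 : (((t : ℝ) : ℂ)) ^ (-4 : ℤ) = 1 := by
    have := mul_left_cancel₀ hNc hlim
    simpa using this
  have ht4 : t ^ 4 = 1 := by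
    have h5 : (((t : ℝ) : ℂ)) ^ (4 : ℕ) = 1 := by
      rw [zpow_neg, inv_eq_one] at h4
      exact_mod_cast h4
    exact_mod_cast h5
  have htu : IsUnit t := IsUnit.of_pow_eq_one ht4 (by norm_num)
  have hdvd : (N : ℤ) ∣ γ 1 0 := by
    rw [hq, ← hd0t]
    rcases Int.isUnit_iff.mp htu with h' | h' <;> rw [h'] <;> simp
  rw [Gamma0_mem]
  exact (ZMod.intCast_zmod_eq_zero_iff_dvd _ _).mpr hdvd

end Fermat.Agent.S23
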