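import Fermat.Agent.S23.Nice

/-!
Function level version of the span of integral forms; closure properties; twisting of
`q`-expansions by additive maps.
-/

set_option autoImplicit false

namespace Fermat.Agent.S23

open UpperHalfPlane ModularForm Function
open scoped MatrixGroups Manifold

lemma isIntQ_iff_map {F : ℍ → ℂ} :
    IsIntQ F ↔ ∃ ψ : PowerSeries ℤ, ψ.map (Int.castRingHom ℂ) = qExpansion 1 F := by
  constructor
  · intro h
    choose a ha using h
    exact ⟨PowerSeries.mk a, by ext n; simp [ha]⟩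
  · rintro ⟨ψ, hψ⟩ n
    exact ⟨ψ.coeff n, by rw [← hψ]; simp⟩

lemma IsIntQ.mul {F G : ℍ → ℂ} (hF : IsIntQ F) (hG : IsIntQ G) (hF' : F ∈ Nice) (hG' : G ∈ Nice) :
    IsIntQ (F * G) := by
  rw [isIntQ_iff_map] at *
  obtain ⟨ψ, hψ⟩ := hF
  obtain ⟨χ, hχ⟩ := hG
  exact ⟨ψ * χ, by rw [map_mul, hψ, hχ, qExpansion_mul (Nice.analyticAt hF') (Nice.analyticAt hG')]⟩

lemma IsIntQ.one : IsIntQ (1 : ℍ → ℂ) := by
  rw [isIntQ_iff_map]
  exact ⟨1, by rw [map_one, qExpansion_one]⟩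

variable (Γ : Subgroup (GL (Fin 2) ℝ))

/-- Functions which are modular forms of weight `a` on `Γ` with integral `q`-expansion. -/
def ISset (a : ℤ) : Set (ℍ → ℂ) := {F | IsIntQ F ∧ ∃ g : ModularForm Γ a, ⇑g = F}

/-- The complex span of `ISset`. -/
def IS (a : ℤ) : Submodule ℂ (ℍ → ℂ) := Submodule.span ℂ (ISset Γ a)

variable {Γ}

/-- The coercion to functions as a linear map. -/
def coeLM (Γ : Subgroup (GL (Fin 2) ℝ)) [Γ.HasDetOne] (a : ℤ) : ModularForm Γ a →ₗ[ℂ] (ℍ → ℂ) where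
  toFun g := ⇑g
  map_add' _ _ := rfl
  map_smul' _ _ := rfl

lemma IS_eq_map [Γ.HasDetOne] (a : ℤ) : IS Γ a = (intSpanMF Γ a).map (coeLM Γ a) := by
  rw [IS, intSpanMF, Submodule.map_span]
  congr 1
  ext F
  constructor
  · rintro ⟨hF, g, rfl⟩
    exact ⟨g, hF, rfl⟩
  · rintro ⟨g, hg, rfl⟩
    exact ⟨hg, g, rfl⟩

lemma mem_IS_iff [Γ.HasDetOne] {a : ℤ} {F : ℍ → ℂ} :
    F ∈ IS Γ a ↔ ∃ g ∈ intSpanMF Γ a, ⇑g = F := by
  rw [IS_eq_map]
  rfl

lemma IS_one_mem [Γ.HasDetOne] : (1 : ℍ → ℂ) ∈ IS Γ 0 :=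
  Submodule.subset_span ⟨IsIntQ.one, 1, rfl⟩

lemma IS_mul_mem [Γ.HasDetOne] (h1 : (1 : ℝ) ∈ Γ.strictPeriods) {a a' : ℤ} {F G : ℍ → ℂ}
    (hF : F ∈ IS Γ a) (hG : G ∈ IS Γ a') : F * G ∈ IS Γ (a + a') := by
  have h : IS Γ a * IS Γ a' ≤ IS Γ (a + a') := by
    rw [IS, IS, Submodule.span_mul_span]
    refine Submodule.span_mono ?_
    rintro _ ⟨F, ⟨hF, g, rfl⟩, G, ⟨hG, g', rfl⟩, rfl⟩
    exact ⟨hF.mul hG (coe_mem_Nice h1 g) (coe_mem_Nice h1 g'), g.mul g', rfl⟩
  exact h (Submodule.mul_mem_mul hF hG)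

/-- The graded monoid structure on `IS Γ`. -/
lemma IS_gradedMonoid [Γ.HasDetOne] (h1 : (1 : ℝ) ∈ Γ.strictPeriods) :
    SetLike.GradedMonoid (IS Γ) where
  one_mem := IS_one_mem
  mul_mem _ _ _ _ hF hG := IS_mul_mem h1 hF hG

/-- Restriction of a modular form to a subgroup. -/
def restrictMF {Γ Γ' : Subgroup (GL (Fin 2) ℝ)} (h : Γ ≤ Γ') {a : ℤ} (g : ModularForm Γ' a) :
    ModularForm Γ a where
  toFun := g
  slash_action_eq' γ hγ := g.slash_action_eq' γ (h hγ)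
  holo' := g.holo'
  bdd_at_cusps' hc := g.bdd_at_cusps' (hc.mono h)

@[simp] lemma coe_restrictMF {Γ Γ' : Subgroup (GL (Fin 2) ℝ)} (h : Γ ≤ Γ') {a : ℤ}
    (g : ModularForm Γ' a) : ⇑(restrictMF h g) = ⇑g := rfl

lemma IS_mono {Γ Γ' : Subgroup (GL (Fin 2) ℝ)} (h : Γ ≤ Γ') (a : ℤ) : IS Γ' a ≤ IS Γ a := by
  refine Submodule.span_mono ?_
  rintro _ ⟨hF, g, rfl⟩
  exact ⟨hF, restrictMF h g, rfl⟩

section twist

variable [Γ.HasDetOne]

/-- Twisting the `q`-expansion of an element of the integral span by an additive map. -/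
lemma exists_twist (h1 : (1 : ℝ) ∈ Γ.strictPeriods) {a : ℤ} (g : ModularForm Γ a)
    (hg : g ∈ intSpanMF Γ a) : ∀ L : ℂ →+ ℂ, ∃ g' ∈ intSpanMF Γ a,
      ∀ n, (qExpansion 1 g').coeff n = L ((qExpansion 1 g).coeff n) := by
  induction hg using Submodule.span_induction with
  | mem g hg =>
    intro L
    refine ⟨L 1 • g, Submodule.smul_mem _ _ (Submodule.subset_span hg), fun n => ?_⟩
    obtain ⟨m, hm⟩ := hg n
    rw [FunLike.coe_smul, ModularForm.qExpansion_smul one_pos h1, PowerSeries.coeff_smul, hm]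
    have : L (m : ℂ) = m • L 1 := by rw [← map_zsmul]; simp
    rw [this]; simp [mul_comm]
  | zero =>
    intro L
    exact ⟨0, Submodule.zero_mem _, fun n => by simp [qExpansion_zero]⟩
  | add g g' _ _ ih ih' =>
    intro L
    obtain ⟨t, ht, ht'⟩ := ih L
    obtain ⟨t', ht2, ht2'⟩ := ih' L
    refine ⟨t + t', Submodule.add_mem _ ht ht2, fun n => ?_⟩
    rw [FunLike.coe_add, FunLike.coe_add, ModularForm.qExpansion_add one_pos h1,
      ModularForm.qExpansion_add one_pos h1, map_add, map_add, map_add, ht', ht2']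
  | smul c g _ ih =>
    intro L
    obtain ⟨t, ht, ht'⟩ := ih (L.comp (AddMonoidHom.mulLeft c))
    refine ⟨t, ht, fun n => ?_⟩
    rw [ht', FunLike.coe_smul, ModularForm.qExpansion_smul one_pos h1, PowerSeries.coeff_smul]
    rfl

lemma BD.add {φ ψ : PowerSeries ℂ} (hφ : BD φ) (hψ : BD ψ) : BD (φ + ψ) := by
  obtain ⟨M, hM, a, ha⟩ := hφ
  obtain ⟨M', hM', a', ha'⟩ := hψ
  refine ⟨M * M', mul_ne_zero hM hM', PowerSeries.mk fun n => M' * a.coeff n + M * a'.coeff n, ?_⟩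
  have e1 : ((M * M' : ℤ) : ℂ) • (φ + ψ) = (M' : ℂ) • ((M : ℂ) • φ) + (M : ℂ) • ((M' : ℂ) • ψ) := by
    push_cast
    rw [smul_add, smul_smul, smul_smul, mul_comm (M' : ℂ)]
  rw [e1, ha, ha']
  ext n
  simp only [map_add, PowerSeries.coeff_smul, PowerSeries.coeff_map, PowerSeries.coeff_mk,
    smul_eq_mul, eq_intCast, Int.cast_add, Int.cast_mul]

lemma BD.zero : BD 0 := ⟨1, one_ne_zero, 0, by simp⟩

/-- Twisting by an additive map with rational values gives bounded denominators. -/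
lemma BD_twist (h1 : (1 : ℝ) ∈ Γ.strictPeriods) {a : ℤ} (g : ModularForm Γ a)
    (hg : g ∈ intSpanMF Γ a) : ∀ L : ℂ →+ ℂ, (∀ z, ∃ r : ℚ, L z = r) →
      BD (PowerSeries.mk fun n => L ((qExpansion 1 g).coeff n)) := by
  induction hg using Submodule.span_induction with
  | mem g hg =>
    intro L hL
    obtain ⟨r, hr⟩ := hL 1
    choose m hm using hg
    refine ⟨r.den, by exact_mod_cast r.den_nz, PowerSeries.mk fun n => r.num * m n, ?_⟩
    ext n
    have : L (m n : ℂ) = m n • L 1 := by rw [← map_zsmul]; simp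
    simp only [PowerSeries.coeff_smul, PowerSeries.coeff_mk, PowerSeries.coeff_map, hm, this, hr]
    have h2 : ((r.den : ℤ) : ℂ) * (r : ℂ) = r.num := by
      have := Rat.den_mul_eq_num r
      exact_mod_cast congrArg (fun x : ℚ => (x : ℂ)) this
    simp only [zsmul_eq_mul, smul_eq_mul, eq_intCast, Int.cast_mul]
    rw [← h2]; ring
  | zero =>
    intro L _
    have : (PowerSeries.mk fun n => L ((qExpansion 1 (⇑(0 : ModularForm Γ a))).coeff n)) = 0 := by
      ext n; simp [qExpansion_zero]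
    rw [this]; exact BD.zero
  | add g g' _ _ ih ih' =>
    intro L hL
    have : (PowerSeries.mk fun n => L ((qExpansion 1 (⇑(g + g'))).coeff n)) =
        (PowerSeries.mk fun n => L ((qExpansion 1 g).coeff n)) +
        (PowerSeries.mk fun n => L ((qExpansion 1 g').coeff n)) := by
      ext n
      rw [FunLike.coe_add, ModularForm.qExpansion_add one_pos h1]
      simp
    rw [this]
    exact (ih L hL).add (ih' L hL)
  | smul c g _ ih =>
    intro L hL
    have := ih (L.comp (AddMonoidHom.mulLeft c)) (fun z => hL _)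
    convert this using 3 with n
    rw [FunLike.coe_smul, ModularForm.qExpansion_smul one_pos h1, PowerSeries.coeff_smul]
    rfl

end twist

end Fermat.Agent.S23
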