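import Fermat.Agent.S23.LevelOne
import Fermat.Agent.S23.IntSpan
import Fermat.Prelude.Def_ModularForm_HeckeOperator
import Fermat.Prelude.Thm_CongruenceSubgroup_one_mem_strictPeriods_Gamma0

/-!
The form `x(z) = N³ E₄(N z)` on `Γ₀(N)` and the integrality of its `q`-expansion.
-/

set_option autoImplicit false

namespace Fermat.Agent.S23

open UpperHalfPlane ModularForm Function CongruenceSubgroup EisensteinSeries
open scoped MatrixGroups Manifold Pointwise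

/-- The matrix `diag(N, 1)`. -/
noncomputable def sepAlpha (N : ℕ) : GL (Fin 2) ℝ := ModularForm.heckeDiagMatrix N

lemma sep_Gamma0_le (N : ℕ) [NeZero N] :
    (Gamma0 N : Subgroup (GL (Fin 2) ℝ)) ≤ ConjAct.toConjAct (sepAlpha N)⁻¹ • 𝒮ℒ := by
  rintro _ ⟨γ, hγ, rfl⟩
  rw [SetLike.mem_coe, Gamma0_mem, ZMod.intCast_zmod_eq_zero_iff_dvd] at hγ
  obtain ⟨c, hc⟩ := hγ
  have hN : (N : ℝ) ≠ 0 := Nat.cast_ne_zero.mpr (NeZero.ne N)
  have hdet : γ 0 0 * γ 1 1 - γ 0 1 * γ 1 0 = 1 := by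
    have := γ.det_coe
    rwa [Matrix.det_fin_two] at this
  let δ : SL(2, ℤ) := ⟨!![γ 0 0, N * γ 0 1; c, γ 1 1], by
    rw [Matrix.det_fin_two_of]
    rw [hc] at hdet
    linarith⟩
  rw [Subgroup.mem_pointwise_smul_iff_inv_smul_mem]
  refine ⟨δ, ?_⟩
  rw [← map_inv, inv_inv, ConjAct.toConjAct_smul]
  rw [eq_mul_inv_iff_mul_eq]
  have hδ : ∀ i j, ((Matrix.SpecialLinearGroup.mapGL ℝ δ : GL (Fin 2) ℝ) :
      Matrix (Fin 2) (Fin 2) ℝ) i j = ((δ.1 i j : ℤ) : ℝ) := fun i j => rfl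
  have hγ' : ∀ i j, ((Matrix.SpecialLinearGroup.mapGL ℝ γ : GL (Fin 2) ℝ) :
      Matrix (Fin 2) (Fin 2) ℝ) i j = ((γ.1 i j : ℤ) : ℝ) := fun i j => rfl
  ext i j
  simp only [Matrix.GeneralLinearGroup.coe_mul, sepAlpha, val_heckeDiagMatrix (NeZero.ne N),
    Matrix.mul_apply, Fin.sum_univ_two, hδ, hγ']
  fin_cases i <;> fin_cases j <;> simp [δ, hc, mul_comm]

/-- The form `N³ E₄(N z)` on `Γ₀(N)`. -/
noncomputable def sepX (N : ℕ) [NeZero N] : ModularForm (Gamma0 N : Subgroup (GL (Fin 2) ℝ)) 4 :=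
  restrictMF (sep_Gamma0_le N) (ModularForm.translate E₄ (sepAlpha N))

lemma coe_sepX (N : ℕ) [NeZero N] : ⇑(sepX N) = ⇑E₄ ∣[(4 : ℤ)] sepAlpha N := rfl

lemma sepX_apply (N : ℕ) [NeZero N] (τ : ℍ) :
    sepX N τ = (N : ℂ) ^ 3 * E₄ (sepAlpha N • τ) := by
  rw [coe_sepX, sepAlpha, slash_heckeDiagMatrix_apply _ (NeZero.ne N)]
  norm_num

lemma coe_sepAlpha_smul (N : ℕ) [NeZero N] (τ : ℍ) :
    ((sepAlpha N • τ : ℍ) : ℂ) = (N : ℂ) * τ :=
  coe_heckeDiagMatrix_smul (NeZero.ne N) τ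

lemma sepq_qParam (N : ℕ) [NeZero N] (τ : ℍ) :
    Periodic.qParam 1 ((sepAlpha N • τ : ℍ) : ℂ) = Periodic.qParam 1 (τ : ℂ) ^ N := by
  rw [coe_sepAlpha_smul, Periodic.qParam, Periodic.qParam, ← Complex.exp_nat_mul]
  congr 1
  ring

/-- The coefficients of `sepX N`. -/
noncomputable def sepqCoeff (N : ℕ) (n : ℕ) : ℂ :=
  if N ∣ n then (N : ℂ) ^ 3 * (qExpansion 1 E₄).coeff (n / N) else 0

lemma sepq_hasSum (N : ℕ) [NeZero N] (τ : ℍ) :
    HasSum (fun m ↦ sepqCoeff N m • Periodic.qParam 1 (τ : ℂ) ^ m) (sepX N τ) := by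
  have h := ModularForm.hasSum_qExpansion (f := E₄) one_pos one_mem_strictPeriods_SL
    (sepAlpha N • τ)
  rw [sepq_qParam] at h
  have h2 := h.mul_left ((N : ℂ) ^ 3)
  rw [← sepX_apply] at h2
  have hinj : Function.Injective (fun m : ℕ => N * m) := fun a b hab =>
    Nat.eq_of_mul_eq_mul_left (Nat.pos_of_ne_zero (NeZero.ne N)) hab
  rw [← hinj.hasSum_iff]
  · have hfun : ((fun m => sepqCoeff N m • Periodic.qParam 1 (τ : ℂ) ^ m) ∘ fun m => N * m) =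
        fun i => (N : ℂ) ^ 3 * ((PowerSeries.coeff i) (qExpansion 1 ⇑E₄) *
          (Periodic.qParam 1 (τ : ℂ) ^ N) ^ i) := by
      funext m
      simp only [Function.comp, sepqCoeff, dvd_mul_right, if_true,
        Nat.mul_div_cancel_left _ (Nat.pos_of_ne_zero (NeZero.ne N)), smul_eq_mul, pow_mul]
      ring
    rw [hfun]
    exact h2
  · intro n hn
    have : ¬ N ∣ n := fun ⟨m, hm⟩ => hn ⟨m, hm.symm⟩
    simp [sepqCoeff, this]

lemma sepq_coeff (N : ℕ) [NeZero N] (n : ℕ) :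
    (qExpansion 1 (sepX N)).coeff n = sepqCoeff N n :=
  (ModularFormClass.qExpansion_coeff_unique one_pos (one_mem_strictPeriods_Gamma0 N)
    (sepq_hasSum N) n).symm

theorem isIntQ_sepX (N : ℕ) [NeZero N] : IsIntQ (sepX N) := by
  intro n
  rw [sepq_coeff, sepqCoeff]
  split_ifs with h
  · obtain ⟨a, ha⟩ := isIntQ_E₄ (n / N)
    exact ⟨N ^ 3 * a, by rw [ha]; push_cast; ring⟩
  · exact ⟨0, by simp⟩

end Fermat.Agent.S23
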