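import Fermat.Agent.S23.SepSep
import Fermat.Agent.S23.SepFormQ

/-!
Part F: the separating form `x(z) = N³ E₄(N z)` on `Γ₀(N)`.
-/

set_option autoImplicit false

namespace Fermat.Agent.S23

open UpperHalfPlane ModularForm CongruenceSubgroup Filter Topology Function
open scoped MatrixGroups Manifold

lemma sepf_isIntQ (N : ℕ) [NeZero N] : IsIntQ (sepX N) := by
  have hN : 0 < N := Nat.pos_of_ne_zero (NeZero.ne N)
  obtain ⟨ψ, hψ⟩ := isIntQ_iff_map.mp isIntQ_E₄
  set c : ℕ → ℂ := fun n => if N ∣ n then (N : ℂ) ^ 3 * (qExpansion 1 E₄).coeff (n / N) else 0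
    with hc
  have hsum : ∀ τ : ℍ, HasSum (fun n => c n • Periodic.qParam 1 τ ^ n) (sepX N τ) := by
    intro τ
    have h1 := ModularForm.hasSum_qExpansion (f := E₄) one_pos one_mem_strictPeriods_SL
      (sepAlpha N • τ)
    have hq : Periodic.qParam 1 ((sepAlpha N • τ : ℍ) : ℂ) = Periodic.qParam 1 (τ : ℂ) ^ N := by
      rw [coe_sepAlpha_smul, Periodic.qParam, Periodic.qParam, ← Complex.exp_nat_mul]
      congr 1
      ring
    have hinj : Injective (fun m : ℕ => N * m) := fun a b hab =>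
      Nat.eq_of_mul_eq_mul_left hN hab
    rw [← hinj.hasSum_iff]
    · rw [sepX_apply]
      have h2 := h1.mul_left ((N : ℂ) ^ 3)
      have h3 : ((fun n => c n • Periodic.qParam 1 (τ : ℂ) ^ n) ∘ fun m : ℕ => N * m) =
          fun m => (N : ℂ) ^ 3 * ((qExpansion 1 E₄).coeff m *
            Periodic.qParam 1 ((sepAlpha N • τ : ℍ) : ℂ) ^ m) := by
        funext m
        simp only [comp_apply, hc, dvd_mul_right, if_true, Nat.mul_div_cancel_left m hN, hq,
          smul_eq_mul, pow_mul]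
        ring
      rw [h3]
      exact h2
    · intro n hn
      have : ¬ N ∣ n := fun ⟨m, hm⟩ => hn ⟨m, hm.symm⟩
      simp [hc, this]
  intro n
  have := ModularFormClass.qExpansion_coeff_unique one_pos
    (CongruenceSubgroup.one_mem_strictPeriods_Gamma0 N) (f := sepX N) hsum n
  rw [← this, hc]
  by_cases hn : N ∣ n
  · refine ⟨N ^ 3 * ψ.coeff (n / N), ?_⟩
    simp only [hn, if_true, ← hψ]
    simp
  · exact ⟨0, by simp [hn]⟩

theorem exists_separating_form (N : ℕ) [NeZero N] :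
    ∃ x : ModularForm (Gamma0 N : Subgroup (GL (Fin 2) ℝ)) 4, IsIntQ x ∧
      ∀ g ∈ 𝒮ℒ, (⇑x ∣[(4 : ℤ)] g = ⇑x) → g ∈ (Gamma0 N : Subgroup (GL (Fin 2) ℝ)) := by
  refine ⟨sepX N, sepf_isIntQ N, ?_⟩
  rintro _ ⟨γ, rfl⟩ h
  exact ⟨γ, sep_separation N (sepAlpha N) (ModularForm.val_heckeDiagMatrix (NeZero.ne N)) γ h, rfl⟩

end Fermat.Agent.S23
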