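import Fermat.Agent.S23.Main
import Fermat.Agent.S23.SepForm
import Fermat.Prelude.Thm_CongruenceSubgroup_one_mem_strictPeriods_Gamma0

/-!
The integral structure on `S_k(Γ₀(N))` for every weight `k`.
-/

set_option autoImplicit false

namespace Fermat.Agent.S23

open UpperHalfPlane ModularForm CongruenceSubgroup
open scoped MatrixGroups Manifold

theorem hasIntegralStructure (N : ℕ) [NeZero N] (k : ℤ) : CuspForm.HasIntegralStructure N k := by
  obtain ⟨x, hx, hsep⟩ := exists_separating_form N
  have hΓ : (Gamma0 N : Subgroup (GL (Fin 2) ℝ)) ≤ 𝒮ℒ := Subgroup.map_le_range _ _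
  have key := span_integral_cuspForm hΓ (CongruenceSubgroup.one_mem_strictPeriods_Gamma0 N)
    x hx hsep k
  unfold CuspForm.HasIntegralStructure
  rw [eq_top_iff, ← key]
  refine Submodule.span_mono fun f hf => ?_
  exact Submodule.subset_span hf

end Fermat.Agent.S23
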