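import Fermat.Agent.S23.Defs

/-!
Part I: the analytic lemma. A quotient `b / D` of modular forms which satisfies a monic
polynomial relation with level one cuspidal coefficients is a cusp form.
-/

set_option autoImplicit false

namespace Fermat.Agent.S23

open UpperHalfPlane ModularForm Function Filter Topology
open scoped MatrixGroups Manifold

section complexLemmas

lemma norm_le_of_monic_root {μ : ℕ} (y : ℂ) (a : ℕ → ℂ)
    (h : y ^ μ + ∑ i ∈ Finset.range μ, a (i + 1) * y ^ (μ - (i + 1)) = 0) :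
    ‖y‖ ≤ max 1 (∑ i ∈ Finset.range μ, ‖a (i + 1)‖) := by
  rcases le_or_gt ‖y‖ 1 with hy | hy
  · exact le_max_of_le_left hy
  · refine le_max_of_le_right ?_
    rcases Nat.eq_zero_or_pos μ with rfl | hμ
    · simp at h
    have h1 : y ^ μ = - ∑ i ∈ Finset.range μ, a (i + 1) * y ^ (μ - (i + 1)) :=
      eq_neg_of_add_eq_zero_left h
    have h2 : ‖y‖ ^ μ ≤ (∑ i ∈ Finset.range μ, ‖a (i + 1)‖) * ‖y‖ ^ (μ - 1) := by
      rw [← norm_pow, h1, norm_neg, Finset.sum_mul]
      refine (norm_sum_le _ _).trans (Finset.sum_le_sum fun i _ => ?_)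
      rw [norm_mul, norm_pow]
      exact mul_le_mul_of_nonneg_left (pow_le_pow_right₀ hy.le (by omega)) (norm_nonneg _)
    have h3 : ‖y‖ ^ μ = ‖y‖ * ‖y‖ ^ (μ - 1) := by
      rw [← pow_succ']; congr 1; omega
    rw [h3] at h2
    exact le_of_mul_le_mul_right h2 (pow_pos (by linarith) _)

lemma norm_pow_le_of_monic_root {μ : ℕ} (y : ℂ) (a : ℕ → ℂ) (hy : ‖y‖ ≤ 1)
    (h : y ^ μ + ∑ i ∈ Finset.range μ, a (i + 1) * y ^ (μ - (i + 1)) = 0) :
    ‖y‖ ^ μ ≤ ∑ i ∈ Finset.range μ, ‖a (i + 1)‖ := by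
  have h1 : y ^ μ = - ∑ i ∈ Finset.range μ, a (i + 1) * y ^ (μ - (i + 1)) :=
    eq_neg_of_add_eq_zero_left h
  rw [← norm_pow, h1, norm_neg]
  refine (norm_sum_le _ _).trans (Finset.sum_le_sum fun i _ => ?_)
  rw [norm_mul, norm_pow]
  exact mul_le_of_le_one_right (norm_nonneg _) (pow_le_one₀ (norm_nonneg _) hy)

end complexLemmas

section quotient

/-- Removable singularities: a locally bounded quotient of holomorphic functions on `ℍ` is
holomorphic. -/
lemma exists_holomorphic_quotient (D b : ℍ → ℂ) (hD : MDiff D) (hb : MDiff b) (hD0 : D ≠ 0)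
    (B : ℍ → ℝ) (hB : Continuous B) (hbound : ∀ z, D z ≠ 0 → ‖b z / D z‖ ≤ B z)
    (hzero : ∀ z, D z = 0 → b z = 0) :
    ∃ h : ℍ → ℂ, MDiff h ∧ D * h = b := by
  classical
  set U : Set ℂ := {z | 0 < z.im} with hU
  have hUo : IsOpen U := isOpen_upperHalfPlaneSet
  have hDc : DifferentiableOn ℂ (D ∘ ofComplex) U := UpperHalfPlane.mdifferentiable_iff.mp hD
  have hbc : DifferentiableOn ℂ (b ∘ ofComplex) U := UpperHalfPlane.mdifferentiable_iff.mp hb
  set Dc : ℂ → ℂ := D ∘ ofComplex with hDcdef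
  set bc : ℂ → ℂ := b ∘ ofComplex with hbcdef
  set h0 : ℂ → ℂ := fun z => bc z / Dc z with hh0
  set hc : ℂ → ℂ := fun z => if Dc z ≠ 0 then h0 z else limUnder (𝓝[≠] z) h0 with hhc
  have hDan : AnalyticOnNhd ℂ Dc U := hDc.analyticOnNhd hUo
  have hUpre : IsPreconnected U := (convex_halfSpace_im_gt 0).isPreconnected
  -- zeros of `Dc` are isolated
  have hiso : ∀ z0 ∈ U, ∀ᶠ z in 𝓝[≠] z0, Dc z ≠ 0 := by
    intro z0 hz0
    rcases (hDan z0 hz0).eventually_eq_zero_or_eventually_ne_zero with h | h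
    · exfalso
      apply hD0
      have := hDan.eqOn_zero_of_preconnected_of_eventuallyEq_zero hUpre hz0 h
      ext z
      have h2 := this z.2
      simpa [hDcdef, ofComplex_apply] using h2
    · exact h
  have hdiff : ∀ z0 ∈ U, DifferentiableAt ℂ hc z0 := by
    intro z0 hz0
    by_cases hz : Dc z0 ≠ 0
    · -- regular point
      have hcont : ContinuousAt Dc z0 := (hDc.differentiableAt (hUo.mem_nhds hz0)).continuousAt
      have hev : ∀ᶠ z in 𝓝 z0, Dc z ≠ 0 := hcont.eventually_ne hz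
      have heq : hc =ᶠ[𝓝 z0] h0 := by
        filter_upwards [hev] with z hz'
        simp [hhc, hz']
      have : DifferentiableAt ℂ h0 z0 :=
        (hbc.differentiableAt (hUo.mem_nhds hz0)).div (hDc.differentiableAt (hUo.mem_nhds hz0)) hz
      exact heq.differentiableAt_iff.mpr this
    · -- a zero of `Dc`
      rw [not_not] at hz
      have hBc : ContinuousAt (fun z : ℂ => B (ofComplex z)) z0 :=
        hB.continuousAt.comp (mdifferentiableAt_ofComplex hz0).continuousAt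
      have hBev : ∀ᶠ z in 𝓝 z0, B (ofComplex z) < B (ofComplex z0) + 1 :=
        hBc.eventually_lt continuousAt_const (by simp)
      have hne : ∀ᶠ z in 𝓝 z0, z ≠ z0 → Dc z ≠ 0 := by
        have := hiso z0 hz0
        rwa [eventually_nhdsWithin_iff] at this
      obtain ⟨s, hs, hso, hz0s⟩ := eventually_nhds_iff.mp
        ((hBev.and hne).and (hUo.eventually_mem hz0))
      have hsn : s ∈ 𝓝 z0 := hso.mem_nhds hz0s
      have hd : DifferentiableOn ℂ h0 (s \ {z0}) := by
        intro z hz'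
        have hzU : z ∈ U := (hs z hz'.1).2
        exact ((hbc.differentiableAt (hUo.mem_nhds hzU)).div
          (hDc.differentiableAt (hUo.mem_nhds hzU))
          ((hs z hz'.1).1.2 hz'.2)).differentiableWithinAt
      have hbd : BddAbove (norm ∘ h0 '' (s \ {z0})) := by
        refine ⟨B (ofComplex z0) + 1, ?_⟩
        rintro _ ⟨z, hz', rfl⟩
        have h1 := hbound (ofComplex z) ((hs z hz'.1).1.2 hz'.2)
        exact h1.trans (hs z hz'.1).1.1.le
      have key := Complex.differentiableOn_update_limUnder_of_bddAbove hsn hd hbd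
      have heq : hc =ᶠ[𝓝 z0] update h0 z0 (limUnder (𝓝[≠] z0) h0) := by
        filter_upwards [hsn] with z hzs
        by_cases hzz : z = z0
        · subst hzz
          simp [hhc, hz]
        · have : Dc z ≠ 0 := (hs z hzs).1.2 hzz
          simp [hhc, this, update_of_ne hzz]
      exact heq.differentiableAt_iff.mpr (key.differentiableAt hsn)
  refine ⟨fun z => hc (z : ℂ), ?_, ?_⟩
  · rw [UpperHalfPlane.mdifferentiable_iff]
    have : DifferentiableOn ℂ hc U := fun z hz => (hdiff z hz).differentiableWithinAt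
    refine this.congr fun z hz => ?_
    simp [ofComplex_apply_of_im_pos hz]
  · ext z
    by_cases hz : D z = 0
    · simp [hz, hzero z hz]
    · have : Dc (z : ℂ) ≠ 0 := by simpa [hDcdef, ofComplex_apply] using hz
      simp only [Pi.mul_apply, hhc, this, ne_eq, not_false_eq_true, if_true, hh0]
      simp only [hDcdef, hbcdef, comp_apply, ofComplex_apply]
      field_simp

end quotient

section main

lemma tendsto_zero_of_norm_pow_le {l : Filter ℍ} {y : ℍ → ℂ} {A : ℍ → ℝ} {μ : ℕ} (hμ : 0 < μ)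
    (hA : Tendsto A l (𝓝 0)) (h : ∀ᶠ z in l, ‖y z‖ ^ μ ≤ A z) : Tendsto y l (𝓝 0) := by
  rw [tendsto_zero_iff_norm_tendsto_zero]
  have h1 : Tendsto (fun z => ‖y z‖ ^ μ) l (𝓝 0) :=
    squeeze_zero' (Eventually.of_forall fun z => by positivity) h hA
  have h2 := h1.rpow_const (p := (μ : ℝ)⁻¹) (Or.inr (by positivity))
  rw [Real.zero_rpow (by positivity)] at h2
  refine h2.congr fun z => ?_
  exact Real.pow_rpow_inv_natCast (norm_nonneg _) hμ.ne'

variable {Γ : Subgroup (GL (Fin 2) ℝ)} [Γ.IsArithmetic] [Γ.HasDetOne]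

theorem exists_cuspForm_of_relation (hΓ : Γ ≤ 𝒮ℒ) {k m : ℤ} (D : ModularForm 𝒮ℒ m) (hD : D ≠ 0)
    (b : ModularForm Γ (m + k)) (μ : ℕ) (hμ : 0 < μ) (e : ∀ i : ℕ, CuspForm 𝒮ℒ ((i : ℤ) * k))
    (hrel : (⇑b : ℍ → ℂ) ^ μ + ∑ i ∈ Finset.range μ,
      ⇑(e (i + 1)) * (⇑b : ℍ → ℂ) ^ (μ - (i + 1)) * (⇑D : ℍ → ℂ) ^ (i + 1) = 0) :
    ∃ h : CuspForm Γ k, (⇑D * ⇑h : ℍ → ℂ) = ⇑b := by
  classical
  have hD0 : (⇑D : ℍ → ℂ) ≠ 0 := fun h => hD (DFunLike.coe_injective h)
  -- pointwise factorisation of the relation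
  have hfac : ∀ (z : ℍ) (y : ℂ), b z = y * D z →
      (D z) ^ μ * (y ^ μ + ∑ i ∈ Finset.range μ, e (i + 1) z * y ^ (μ - (i + 1))) = 0 := by
    intro z y hy
    have h0 := congrFun hrel z
    simp only [Pi.add_apply, Pi.pow_apply, Finset.sum_apply, Pi.mul_apply, Pi.zero_apply] at h0
    rw [← h0, hy, mul_add, Finset.mul_sum, mul_pow]
    congr 1
    · ring
    · refine Finset.sum_congr rfl fun i hi => ?_
      have h1 : (D z) ^ μ = (D z) ^ (μ - (i + 1)) * (D z) ^ (i + 1) := by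
        rw [← pow_add]; congr 1; have := Finset.mem_range.mp hi; omega
      rw [h1, mul_pow]; ring
  set B : ℍ → ℝ := fun z => max 1 (∑ i ∈ Finset.range μ, ‖e (i + 1) z‖) with hB
  have hBc : Continuous B :=
    continuous_const.max (continuous_finsetSum _ fun i _ => ((e (i + 1)).holo'.continuous).norm)
  obtain ⟨h, hh, hDh⟩ := exists_holomorphic_quotient D b D.holo' b.holo' hD0 B hBc
    (by
      intro z hz
      refine norm_le_of_monic_root (b z / D z) (fun i => e i z) ?_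
      have := hfac z (b z / D z) (by field_simp)
      exact (mul_eq_zero.mp this).resolve_left (pow_ne_zero _ hz))
    (by
      intro z hz
      have h0 := congrFun hrel z
      simp only [Pi.add_apply, Pi.pow_apply, Finset.sum_apply, Pi.mul_apply, Pi.zero_apply,
        hz] at h0
      rw [Finset.sum_eq_zero (fun i _ => by simp), add_zero] at h0
      exact pow_eq_zero_iff hμ.ne' |>.mp h0)
  have hDh' : ∀ z, b z = h z * D z := fun z => by
    rw [← hDh]; simp [mul_comm]
  -- the monic relation for `h`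
  have hP : ∀ z, h z ^ μ + ∑ i ∈ Finset.range μ, e (i + 1) z * h z ^ (μ - (i + 1)) = 0 := by
    have hF2 : MDiff (h ^ μ + ∑ i ∈ Finset.range μ, ⇑(e (i + 1)) * h ^ (μ - (i + 1))) := by
      refine (hh.pow _).add ?_
      exact MDifferentiable.sum fun i _ => (e (i + 1)).holo'.mul (hh.pow _)
    have hF1 : MDiff ((⇑D : ℍ → ℂ) ^ μ) := D.holo'.pow _
    have hmul : ((⇑D : ℍ → ℂ) ^ μ) *
        (h ^ μ + ∑ i ∈ Finset.range μ, ⇑(e (i + 1)) * h ^ (μ - (i + 1))) = 0 := by
      ext z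
      simpa using hfac z (h z) (hDh' z)
    rcases (UpperHalfPlane.mul_eq_zero_iff hF1 hF2).mp hmul with h1 | h1
    · exact absurd (pow_eq_zero_iff hμ.ne' |>.mp h1) hD0
    · intro z
      simpa using congrFun h1 z
  -- slash invariance
  have hslash : ∀ γ ∈ Γ, h ∣[k] γ = h := by
    intro γ hγ
    obtain ⟨γ', rfl⟩ := hΓ hγ
    have h1 : (⇑D : ℍ → ℂ) * (h ∣[k] γ') = ⇑D * h := by
      have hDs : (⇑D : ℍ → ℂ) ∣[m] γ' = ⇑D := D.slash_action_eq' _ ⟨γ', rfl⟩
      have hbs : (⇑b : ℍ → ℂ) ∣[m + k] γ' = ⇑b := b.slash_action_eq' _ hγ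
      calc (⇑D : ℍ → ℂ) * (h ∣[k] γ') = ((⇑D : ℍ → ℂ) ∣[m] γ') * (h ∣[k] γ') := by rw [hDs]
        _ = ((⇑D : ℍ → ℂ) * h) ∣[m + k] γ' := (mul_slash_SL2 m k γ' _ _).symm
        _ = ⇑D * h := by rw [hDh, hbs]
    have h2 : (⇑D : ℍ → ℂ) * (h ∣[k] γ' - h) = 0 := by rw [mul_sub, h1, sub_self]
    have h3 : MDiff (h ∣[k] γ' - h) := (hh.slash k _).sub hh
    rcases (UpperHalfPlane.mul_eq_zero_iff D.holo' h3).mp h2 with h4 | h4
    · exact absurd h4 hD0
    · exact sub_eq_zero.mp h4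
  -- vanishing at the cusps
  have hcusp : ∀ γ : SL(2, ℤ), IsZeroAtImInfty (h ∣[k] γ) := by
    intro γ
    have hrelγ : ∀ z, ((h ∣[k] γ) z) ^ μ +
        ∑ i ∈ Finset.range μ, e (i + 1) z * ((h ∣[k] γ) z) ^ (μ - (i + 1)) = 0 := by
      intro z
      set δ : ℂ := denom γ z with hδ
      have hδ0 : δ ≠ 0 := denom_ne_zero _ _
      set t : ℂ := δ ^ (-k) with ht
      have ht0 : t ≠ 0 := zpow_ne_zero _ hδ0
      have hy : (h ∣[k] γ) z = h (γ • z) * t := SL_slash_apply _ _ _
      have he : ∀ i : ℕ, e i z = t ^ i * e i (γ • z) := by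
        intro i
        have := SlashInvariantForm.slash_action_eqn'' (e i)
          (show (Matrix.SpecialLinearGroup.mapGL ℝ γ) ∈ 𝒮ℒ from ⟨γ, rfl⟩) z
        have h2 : e i (γ • z) = δ ^ ((i : ℤ) * k) * e i z := this
        rw [h2, ← mul_assoc, ht, ← zpow_natCast, ← zpow_mul, ← zpow_add₀ hδ0]
        have : -k * (i : ℤ) + (i : ℤ) * k = 0 := by ring
        rw [this, zpow_zero, one_mul]
      have h0 := hP (γ • z)
      have : ((h ∣[k] γ) z) ^ μ +
          ∑ i ∈ Finset.range μ, e (i + 1) z * ((h ∣[k] γ) z) ^ (μ - (i + 1)) =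
          t ^ μ * (h (γ • z) ^ μ +
            ∑ i ∈ Finset.range μ, e (i + 1) (γ • z) * h (γ • z) ^ (μ - (i + 1))) := by
        rw [hy, mul_add, Finset.mul_sum, mul_pow]
        congr 1
        · ring
        · refine Finset.sum_congr rfl fun i hi => ?_
          have h1 : t ^ μ = t ^ (μ - (i + 1)) * t ^ (i + 1) := by
            rw [← pow_add]; congr 1; have := Finset.mem_range.mp hi; omega
          rw [h1, he (i + 1), mul_pow]; ring
      rw [this, h0, mul_zero]
    have hA : Tendsto (fun z => ∑ i ∈ Finset.range μ, ‖e (i + 1) z‖) atImInfty (𝓝 0) := by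
      have : Tendsto (fun z => ∑ i ∈ Finset.range μ, ‖e (i + 1) z‖) atImInfty
          (𝓝 (∑ i ∈ Finset.range μ, (0 : ℝ))) := by
        refine tendsto_finsetSum _ fun i _ => ?_
        have h1 : IsZeroAtImInfty (e (i + 1)) := CuspFormClass.zero_at_infty (e (i + 1))
        exact tendsto_zero_iff_norm_tendsto_zero.mp h1
      simpa using this
    refine tendsto_zero_of_norm_pow_le hμ hA ?_
    filter_upwards [hA.eventually_lt_const (show (0 : ℝ) < 1 by norm_num)] with z hz
    have h1 := norm_le_of_monic_root _ (fun i => e i z) (hrelγ z)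
    rw [max_eq_left hz.le] at h1
    exact norm_pow_le_of_monic_root _ (fun i => e i z) h1 (hrelγ z)
  refine ⟨{ toFun := h, slash_action_eq' := hslash, holo' := hh, zero_at_cusps' := ?_ }, hDh⟩
  intro c hc
  rw [Subgroup.IsArithmetic.isCusp_iff_isCusp_SL2Z] at hc
  rw [OnePoint.isZeroAt_iff_forall_SL2Z hc]
  intro γ _
  exact hcusp γ

end main

end Fermat.Agent.S23
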