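import Fermat.Agent.S23.Defs

set_option autoImplicit false

namespace Fermat.Agent.S23

open UpperHalfPlane ModularForm CongruenceSubgroup
open scoped MatrixGroups Manifold

/-- An element of a domain `B` which is integral over an integrally closed subdomain `A` and is a
quotient of two elements of `A` lies in `A`. -/
theorem BDaux_mem_range_of_integral {A B : Type*} [CommRing A] [IsDomain A] [IsIntegrallyClosed A]
    [CommRing B] [IsDomain B] [Algebra A B] (hinj : Function.Injective (algebraMap A B))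
    (h : B) (hint : IsIntegral A h) (u w : A) (hu : u ≠ 0)
    (huw : algebraMap A B u * h = algebraMap A B w) : ∃ a : A, algebraMap A B a = h := by
  let K := FractionRing A
  let L := FractionRing B
  have hinjL : Function.Injective (algebraMap A L) := by
    rw [IsScalarTower.algebraMap_eq A B L]
    exact (IsFractionRing.injective B L).comp hinj
  let f : K →ₐ[A] L := IsFractionRing.liftAlgHom (g := Algebra.ofId A L) hinjL
  have hf : ∀ a : A, f (algebraMap A K a) = algebraMap A L a := fun a => f.commutes a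
  have huK : algebraMap A K u ≠ 0 := by
    simpa using (IsFractionRing.injective A K).ne hu
  have huL : algebraMap A L u ≠ 0 := by
    simpa using hinjL.ne hu
  set x : K := algebraMap A K w / algebraMap A K u with hx
  have hfx : f x = algebraMap B L h := by
    rw [hx, map_div₀, hf, hf, div_eq_iff huL, IsScalarTower.algebraMap_apply A B L w, ← huw,
      map_mul, ← IsScalarTower.algebraMap_apply A B L u, mul_comm]
  have hintL : IsIntegral A (algebraMap B L h) := hint.map (IsScalarTower.toAlgHom A B L)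
  have hintx : IsIntegral A x := by
    rw [← isIntegral_algHom_iff f f.injective, hfx]
    exact hintL
  obtain ⟨a, ha⟩ := IsIntegrallyClosed.isIntegral_iff.mp hintx
  refine ⟨a, ?_⟩
  have h1 : a * u = w := by
    apply IsFractionRing.injective A K
    rw [map_mul, ha, hx, div_mul_cancel₀ _ huK]
  have huB : algebraMap A B u ≠ 0 := by
    simpa using hinj.ne hu
  apply mul_left_cancel₀ huB
  rw [huw, ← h1, map_mul, mul_comm]

open PowerSeries in
theorem BD_iff_mul (φ : PowerSeries ℂ) :
    BD φ ↔ ∃ M : ℤ, M ≠ 0 ∧ ∃ ψ : PowerSeries ℤ,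
      ((M : ℤ) : PowerSeries ℂ) * φ = ψ.map (Int.castRingHom ℂ) := by
  have key : ∀ M : ℤ, (M : ℂ) • φ = ((M : ℤ) : PowerSeries ℂ) * φ := by
    intro M
    rw [Algebra.smul_def, map_intCast]
  simp only [BD, key]

open PowerSeries in
theorem BD_of_integral (φ u v : PowerSeries ℂ) (hu : BD u) (hv : BD v) (hu0 : u ≠ 0)
    (huv : u * φ = v) (μ : ℕ) (e : ℕ → PowerSeries ℂ) (he : ∀ i, BD (e i))
    (hrel : φ ^ μ + ∑ i ∈ Finset.range μ, e (i + 1) * φ ^ (μ - (i + 1)) = 0) : BD φ := by
  classical
  simp only [BD_iff_mul] at hu hv he ⊢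
  obtain ⟨Mu, hMu, u', hu'⟩ := hu
  obtain ⟨Mv, hMv, v', hv'⟩ := hv
  choose Me hMe ψe hψe using he
  set ι : PowerSeries ℤ →+* PowerSeries ℂ := PowerSeries.map (Int.castRingHom ℂ) with hι
  have hιinj : Function.Injective ι :=
    PowerSeries.map_injective _ (RingHom.injective_int (Int.castRingHom ℂ))
  let _ : Algebra (PowerSeries ℤ) (PowerSeries ℂ) := ι.toAlgebra
  have halg : ∀ a : PowerSeries ℤ, algebraMap (PowerSeries ℤ) (PowerSeries ℂ) a = ι a :=
    fun _ => rfl
  set M : ℤ := ∏ i ∈ Finset.range μ, Me (i + 1) with hM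
  have hM0 : M ≠ 0 := Finset.prod_ne_zero_iff.mpr fun i _ => hMe _
  have hdvd : ∀ i ∈ Finset.range μ, ∃ c : ℤ, M = Me (i + 1) * c := fun i hi =>
    Finset.dvd_prod_of_mem (fun i => Me (i + 1)) hi
  let cf : ℕ → ℤ := fun i => if hi : i ∈ Finset.range μ then (hdvd i hi).choose else 0
  have hcf : ∀ i ∈ Finset.range μ, M = Me (i + 1) * cf i := fun i hi => by
    simp only [cf, dif_pos hi]
    exact (hdvd i hi).choose_spec
  let a : ℕ → PowerSeries ℤ := fun i => ((M ^ i * cf i : ℤ) : PowerSeries ℤ) * ψe (i + 1)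
  have ha : ∀ i ∈ Finset.range μ, ι (a i) = ((M : ℤ) : PowerSeries ℂ) ^ (i + 1) * e (i + 1) := by
    intro i hi
    simp only [a, map_mul, map_intCast]
    have hMc : ((M : ℤ) : PowerSeries ℂ) = ((Me (i + 1) : ℤ) : PowerSeries ℂ) * ((cf i : ℤ) : PowerSeries ℂ) := by
      exact_mod_cast congrArg (Int.cast : ℤ → PowerSeries ℂ) (hcf i hi)
    rw [← hψe (i + 1), pow_succ]
    push_cast
    linear_combination (-(((M : ℤ) : PowerSeries ℂ) ^ i * e (i + 1))) * hMc
  set g : PowerSeries ℂ := ((M : ℤ) : PowerSeries ℂ) * φ with hg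
  have hgint : IsIntegral (PowerSeries ℤ) g := by
    let p0 : Polynomial (PowerSeries ℤ) :=
      ∑ i ∈ Finset.range μ, Polynomial.C (a i) * Polynomial.X ^ (μ - (i + 1))
    have hdeg : p0.degree < μ := by
      rw [Polynomial.degree_lt_iff_coeff_zero]
      intro m hm
      simp only [p0, Polynomial.finsetSum_coeff, Polynomial.coeff_C_mul_X_pow]
      refine Finset.sum_eq_zero fun i hi => ?_
      have := Finset.mem_range.mp hi
      rw [if_neg (by omega)]
    refine ⟨Polynomial.X ^ μ + p0, Polynomial.monic_X_pow_add hdeg, ?_⟩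
    simp only [p0, Polynomial.eval₂_add, Polynomial.eval₂_pow, Polynomial.eval₂_X,
      Polynomial.eval₂_finsetSum, Polynomial.eval₂_mul, Polynomial.eval₂_C, halg]
    have : g ^ μ + ∑ i ∈ Finset.range μ, ι (a i) * g ^ (μ - (i + 1))
        = ((M : ℤ) : PowerSeries ℂ) ^ μ *
          (φ ^ μ + ∑ i ∈ Finset.range μ, e (i + 1) * φ ^ (μ - (i + 1))) := by
      rw [mul_add, Finset.mul_sum, hg, mul_pow]
      congr 1
      refine Finset.sum_congr rfl fun i hi => ?_
      have hi' := Finset.mem_range.mp hi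
      rw [ha i hi, mul_pow]
      have : μ = (i + 1) + (μ - (i + 1)) := by omega
      conv_rhs => rw [this, pow_add]
      have h2 : i + 1 + (μ - (i + 1)) - (i + 1) = μ - (i + 1) := by omega
      rw [h2]
      ring
    rw [this, hrel, mul_zero]
  set h : PowerSeries ℂ := ((Mv : ℤ) : PowerSeries ℂ) * g with hh
  have hhint : IsIntegral (PowerSeries ℤ) h := by
    have : ((Mv : ℤ) : PowerSeries ℂ) = algebraMap (PowerSeries ℤ) (PowerSeries ℂ) (Mv : PowerSeries ℤ) := by
      rw [halg, map_intCast]
    rw [hh, this]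
    exact isIntegral_algebraMap.mul hgint
  have hu'0 : u' ≠ 0 := by
    rintro rfl
    rw [map_zero] at hu'
    rcases mul_eq_zero.mp hu' with h0 | h0
    · have h1 := congrArg PowerSeries.constantCoeff h0
      exact hMu (by simpa using h1)
    · exact hu0 h0
  have hrel2 : algebraMap (PowerSeries ℤ) (PowerSeries ℂ) u' * h
      = algebraMap (PowerSeries ℤ) (PowerSeries ℂ) (((Mu * M : ℤ) : PowerSeries ℤ) * v') := by
    rw [halg, halg, map_mul, map_intCast, hι, ← hu', ← hv', hh, hg, ← huv]
    push_cast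
    ring
  obtain ⟨b, hb⟩ := BDaux_mem_range_of_integral hιinj h hhint u' _ hu'0 hrel2
  refine ⟨Mv * M, mul_ne_zero hMv hM0, b, ?_⟩
  rw [halg] at hb
  rw [hb, hh, hg]
  push_cast
  ring

end Fermat.Agent.S23
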