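import Fermat.Agent.S23.Defs

/-!
S23, part H: a cusp form for an arithmetic subgroup of `SL(2, ℤ)` satisfies a monic polynomial
relation whose coefficients are level one cusp forms (elementary symmetric functions of the
conjugates).
-/

set_option autoImplicit false

namespace Fermat.Agent.S23

open UpperHalfPlane ModularForm CongruenceSubgroup
open scoped MatrixGroups Manifold

section CharPoly

variable {Γ : Subgroup (GL (Fin 2) ℝ)} [Γ.IsArithmetic] {k : ℤ}

local notation "𝒬" => 𝒮ℒ ⧸ (Γ.subgroupOf 𝒮ℒ)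

/-- The `i`-th elementary symmetric function of the conjugates of `f`. -/
noncomputable def cpEsymmFun (f : CuspForm Γ k) (i : ℕ) : ℍ → ℂ :=
  letI := Fintype.ofFinite 𝒬
  ∑ s ∈ Finset.powersetCard i (Finset.univ : Finset 𝒬),
    ∏ q ∈ s, SlashInvariantForm.quotientFunc f q

lemma cpEsymmFun_slash (f : CuspForm Γ k) (i : ℕ) (g : GL (Fin 2) ℝ) :
    cpEsymmFun f i ∣[(i : ℤ) * k] g =
      letI := Fintype.ofFinite 𝒬
      ∑ s ∈ Finset.powersetCard i (Finset.univ : Finset 𝒬),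
        |g.det.val| ^ ((i : ℤ) - 1) • ∏ q ∈ s, (SlashInvariantForm.quotientFunc f q ∣[k] g) := by
  let := Fintype.ofFinite 𝒬
  rw [cpEsymmFun, SlashAction.sum_slash]
  refine Finset.sum_congr rfl fun s hs => ?_
  have hcard : s.card = i := (Finset.mem_powersetCard.mp hs).2
  rw [mul_comm, ← hcard, ModularForm.prod_slash]

lemma cpEsymmFun_slash_of_mem (f : CuspForm Γ k) (i : ℕ) {h : GL (Fin 2) ℝ} (hh : h ∈ 𝒮ℒ) :
    cpEsymmFun f i ∣[(i : ℤ) * k] h = cpEsymmFun f i := by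
  let := Fintype.ofFinite 𝒬
  rw [cpEsymmFun_slash]
  have hdet : |h.det.val| = 1 := Subgroup.HasDetPlusMinusOne.abs_det hh
  simp only [hdet, one_zpow, one_smul, SlashInvariantForm.quotientFunc_smul f hh]
  rw [cpEsymmFun]
  have key := fun (F : 𝒬 → ℍ → ℂ) => Finset.esymm_map_val F (Finset.univ : Finset 𝒬) i
  rw [← key, ← key (fun q => SlashInvariantForm.quotientFunc f q)]
  congr 1
  have := Multiset.map_univ_val_equiv (MulAction.toPerm ((⟨h, hh⟩ : 𝒮ℒ)⁻¹) : 𝒬 ≃ 𝒬)
  conv_rhs => rw [← this, Multiset.map_map]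
  rfl

omit [Γ.IsArithmetic] in
lemma cpQuotientFunc_mdiff (f : CuspForm Γ k) (q : 𝒬) :
    MDiff (SlashInvariantForm.quotientFunc f q) := by
  induction q using Quotient.inductionOn with
  | h r => exact (CuspForm.translate f r.val⁻¹).holo'

lemma cpQuotientFunc_isZeroAtImInfty (f : CuspForm Γ k) (q : 𝒬) {γ : GL (Fin 2) ℝ}
    (h : IsCusp (γ • OnePoint.infty) 𝒮ℒ) :
    IsZeroAtImInfty (SlashInvariantForm.quotientFunc f q ∣[k] γ) := by
  induction q using Quotient.inductionOn with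
  | h r =>
    obtain ⟨r, hr⟩ := r
    refine (CuspForm.translate f _).zero_at_cusps' ?_ γ rfl
    simpa using h.of_isFiniteRelIndex_conj hr

lemma cpEsymmFun_mdiff (f : CuspForm Γ k) (i : ℕ) : MDiff (cpEsymmFun f i) := by
  let := Fintype.ofFinite 𝒬
  exact .sum fun s _ => .prod fun q _ => cpQuotientFunc_mdiff f q

/-- The `i`-th elementary symmetric function of the conjugates of `f`, as a level one cusp form
(for `0 < i`). -/
noncomputable def cpEsymmCusp (f : CuspForm Γ k) (i : ℕ) (hi : 0 < i) :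
    CuspForm 𝒮ℒ ((i : ℤ) * k) where
  toFun := cpEsymmFun f i
  slash_action_eq' h hh := cpEsymmFun_slash_of_mem f i hh
  holo' := cpEsymmFun_mdiff f i
  zero_at_cusps' h γ := by
    rintro rfl
    let := Fintype.ofFinite 𝒬
    rw [cpEsymmFun_slash, IsZeroAtImInfty, Filter.ZeroAtFilter, Finset.sum_fn]
    rw [show (0 : ℂ) = ∑ s ∈ Finset.powersetCard i (Finset.univ : Finset 𝒬), 0 by simp]
    refine tendsto_finsetSum _ fun s hs => ?_
    have hcard : s.card = i := (Finset.mem_powersetCard.mp hs).2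
    have hne : s.Nonempty := Finset.card_pos.mp (hcard ▸ hi)
    have h0 : Filter.Tendsto (fun τ => ∏ q ∈ s, (SlashInvariantForm.quotientFunc f q ∣[k] γ) τ)
        atImInfty (nhds (∏ q ∈ s, (0 : ℂ))) :=
      tendsto_finsetProd _ fun q _ => cpQuotientFunc_isZeroAtImInfty f q h
    rw [Finset.prod_const, hcard, zero_pow hi.ne'] at h0
    have := h0.const_smul (|γ.det.val| ^ ((i : ℤ) - 1))
    rw [smul_zero] at this
    refine this.congr fun τ => ?_
    simp [Finset.prod_apply]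

@[simp] lemma coe_cpEsymmCusp (f : CuspForm Γ k) (i : ℕ) (hi : 0 < i) :
    ⇑(cpEsymmCusp f i hi) = cpEsymmFun f i := rfl

lemma cpEsymmFun_apply (f : CuspForm Γ k) (i : ℕ) (τ : ℍ) :
    cpEsymmFun f i τ =
      letI := Fintype.ofFinite 𝒬
      ((Finset.univ : Finset 𝒬).val.map
        (fun q => SlashInvariantForm.quotientFunc f q τ)).esymm i := by
  let := Fintype.ofFinite 𝒬
  rw [Finset.esymm_map_val, cpEsymmFun, Finset.sum_apply]
  exact Finset.sum_congr rfl fun s _ => Finset.prod_apply _ _ _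

lemma cp_relation (f : CuspForm Γ k) (τ : ℍ) :
    ∑ j ∈ Finset.range (Nat.card 𝒬 + 1),
      (-1 : ℂ) ^ j * (cpEsymmFun f j τ * f τ ^ (Nat.card 𝒬 - j)) = 0 := by
  let := Fintype.ofFinite 𝒬
  have hV := Multiset.prod_X_sub_X_eq_sum_esymm
    ((Finset.univ : Finset 𝒬).val.map (fun q => SlashInvariantForm.quotientFunc f q τ))
  have hcard : Multiset.card ((Finset.univ : Finset 𝒬).val.map
      (fun q => SlashInvariantForm.quotientFunc f q τ)) = Nat.card 𝒬 := by
    rw [Multiset.card_map, Nat.card_eq_fintype_card]; rfl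
  rw [hcard] at hV
  have hE := congrArg (Polynomial.eval (f τ)) hV
  rw [Polynomial.eval_finsetSum, Polynomial.eval_multiset_prod] at hE
  simp only [Polynomial.eval_mul, Polynomial.eval_pow, Polynomial.eval_neg, Polynomial.eval_one,
    Polynomial.eval_C, Polynomial.eval_X] at hE
  simp only [cpEsymmFun_apply]
  rw [← hE]
  apply Multiset.prod_eq_zero
  rw [Multiset.mem_map]
  refine ⟨Polynomial.X - Polynomial.C (f τ), ?_, by simp⟩
  rw [Multiset.mem_map]
  refine ⟨f τ, ?_, rfl⟩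
  rw [Multiset.mem_map]
  refine ⟨⟦1⟧, Finset.mem_univ _, ?_⟩
  simp

end CharPoly

theorem exists_monic_relation {Γ : Subgroup (GL (Fin 2) ℝ)} [Γ.IsArithmetic] [Γ.HasDetOne]
    (hΓ : Γ ≤ 𝒮ℒ) {k : ℤ} (f : CuspForm Γ k) :
    ∃ (μ : ℕ) (e : ∀ i : ℕ, CuspForm 𝒮ℒ ((i : ℤ) * k)), 0 < μ ∧
      ((⇑f : ℍ → ℂ) ^ μ + ∑ i ∈ Finset.range μ, ⇑(e (i + 1)) * (⇑f : ℍ → ℂ) ^ (μ - (i + 1)) = 0) := by
  refine ⟨Nat.card (𝒮ℒ ⧸ (Γ.subgroupOf 𝒮ℒ)),
    fun i => if hi : 0 < i then ((-1 : ℂ) ^ i) • cpEsymmCusp f i hi else 0, Nat.card_pos, ?_⟩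
  ext τ
  have h := cp_relation f τ
  rw [Finset.sum_range_succ'] at h
  have h0 : cpEsymmFun f 0 τ = 1 := by
    rw [cpEsymmFun_apply]; simp [Multiset.esymm]
  simp only [pow_zero, one_mul, h0, Nat.sub_zero] at h
  rw [add_comm] at h
  simp only [Pi.add_apply, Pi.pow_apply, Finset.sum_apply, Pi.mul_apply, Pi.zero_apply,
    Nat.succ_pos, dif_pos]
  rw [← h]
  congr 1
  refine Finset.sum_congr rfl fun i _ => ?_
  rw [smul_apply, smul_eq_mul, mul_assoc]
  rfl

end Fermat.Agent.S23
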