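import Fermat.Agent.S23.IntSpan

/-!
Part G: traces to level one and Cramer's rule.  For a modular form `f` on `Γ` there is a nonzero
level one form `D` such that `D * f` lies in the span of the integral forms.
-/

set_option autoImplicit false

namespace Fermat.Agent.S23

open UpperHalfPlane ModularForm Function Matrix
open scoped MatrixGroups Manifold

section algebra

variable {R : Type*} [CommRing R] {n : ℕ}

/-- The Cramer identity for a Vandermonde matrix. -/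
lemma vandermonde_cramer (y φ : Fin n → R) :
    (vandermonde y) *ᵥ (cramer ((vandermonde y)ᵀ * vandermonde y) ((vandermonde y)ᵀ *ᵥ φ)) =
      ((vandermonde y)ᵀ * vandermonde y).det • φ := by
  set W := vandermonde y
  rw [cramer_eq_adjugate_mulVec, adjugate_mul_distrib, mulVec_mulVec, mulVec_mulVec]
  have : W * (W.adjugate * Wᵀ.adjugate) * Wᵀ = (Wᵀ * W).det • (1 : Matrix (Fin n) (Fin n) R) := by
    rw [← Matrix.mul_assoc, Matrix.mul_assoc, adjugate_mul, mul_adjugate, det_mul]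
    simp [smul_smul, mul_comm]
  rw [this, smul_mulVec, one_mulVec]

lemma det_mem_graded {A : Type*} [CommRing A] [Algebra ℂ A] (𝒜 : ℤ → Submodule ℂ A)
    [SetLike.GradedMonoid 𝒜] (M : Matrix (Fin n) (Fin n) A) (r c : Fin n → ℤ)
    (hM : ∀ i j, M i j ∈ 𝒜 (r i + c j)) : M.det ∈ 𝒜 (∑ i, r i + ∑ j, c j) := by
  rw [det_apply]
  refine Submodule.sum_mem _ fun π _ => ?_
  rw [Units.smul_def]
  refine zsmul_mem ?_ _
  have h1 : ∑ i, r i + ∑ j, c j = ∑ i, (r (π i) + c i) := by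
    rw [Finset.sum_add_distrib, Equiv.sum_comp π r]
  rw [h1]
  exact SetLike.prod_mem_graded 𝒜 _ _ fun i _ => hM (π i) i

end algebra

section slash

lemma pow_slash_SL2 (k : ℤ) (γ : SL(2, ℤ)) (F : ℍ → ℂ) (j : ℕ) :
    (F ^ j) ∣[(j : ℤ) * k] γ = (F ∣[k] γ) ^ j := by
  ext z
  simp only [SL_slash_apply, Pi.pow_apply, mul_pow]
  congr 1
  rw [← zpow_natCast, ← _root_.zpow_mul]
  congr 1
  ring

end slash

section conj

variable {Γ : Subgroup (GL (Fin 2) ℝ)}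

/-- A representative in `SL(2, ℤ)` for the inverse of a coset representative. -/
noncomputable def rep (q : 𝒮ℒ ⧸ (Γ.subgroupOf 𝒮ℒ)) : SL(2, ℤ) := (q.out⁻¹).2.choose

lemma rep_spec (q : 𝒮ℒ ⧸ (Γ.subgroupOf 𝒮ℒ)) :
    (Matrix.SpecialLinearGroup.mapGL ℝ (rep q) : GL (Fin 2) ℝ) = (q.out.val)⁻¹ :=
  (q.out⁻¹).2.choose_spec

lemma slash_rep (F : ℍ → ℂ) (k : ℤ) (q : 𝒮ℒ ⧸ (Γ.subgroupOf 𝒮ℒ)) :
    F ∣[k] rep q = F ∣[k] ((q.out.val)⁻¹ : GL (Fin 2) ℝ) := by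
  show F ∣[k] (Matrix.SpecialLinearGroup.mapGL ℝ (rep q)) = _
  rw [rep_spec]

lemma quotientFunc_eq {k : ℤ} {F : Type*} [FunLike F ℍ ℂ] [SlashInvariantFormClass F Γ k] (g : F)
    (q : 𝒮ℒ ⧸ (Γ.subgroupOf 𝒮ℒ)) :
    SlashInvariantForm.quotientFunc g q = (⇑g : ℍ → ℂ) ∣[k] rep q := by
  conv_lhs => rw [← Quotient.out_eq q]
  rw [SlashInvariantForm.quotientFunc_mk, slash_rep]

lemma rep_injective_of_sep {w : ℤ} (x : ℍ → ℂ)
    (hsep : ∀ g ∈ 𝒮ℒ, (x ∣[w] g = x) → g ∈ Γ) (q q' : 𝒮ℒ ⧸ (Γ.subgroupOf 𝒮ℒ))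
    (h : x ∣[w] rep q = x ∣[w] rep q') : q = q' := by
  have h1 : x ∣[w] ((q.out.val)⁻¹ * q'.out.val) = x := by
    rw [SlashAction.slash_mul, ← slash_rep, h, slash_rep,
      ← SlashAction.slash_mul, inv_mul_cancel, SlashAction.slash_one]
  have h2 := hsep _ (Subgroup.mul_mem _ (Subgroup.inv_mem _ q.out.2) q'.out.2) h1
  rw [← Quotient.out_eq q, ← Quotient.out_eq q']
  exact QuotientGroup.eq.mpr (by simpa [Subgroup.mem_subgroupOf] using h2)

end conj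

section main

variable {Γ : Subgroup (GL (Fin 2) ℝ)} [Γ.IsArithmetic] [Γ.HasDetOne]

theorem exists_denominator (hE : ∀ a : ℤ, intSpanMF 𝒮ℒ a = ⊤) (hΓ : Γ ≤ 𝒮ℒ)
    (h1 : (1 : ℝ) ∈ Γ.strictPeriods) {w : ℤ}
    (x : ModularForm Γ w) (hx : IsIntQ x)
    (hsep : ∀ g ∈ 𝒮ℒ, (⇑x ∣[w] g = ⇑x) → g ∈ Γ) {k : ℤ} (f : ModularForm Γ k) :
    ∃ (m : ℤ) (D : ModularForm 𝒮ℒ m) (b : ModularForm Γ (m + k)),
      D ≠ 0 ∧ b ∈ intSpanMF Γ (m + k) ∧ (⇑D * ⇑f : ℍ → ℂ) = ⇑b := by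
  classical
  letI : Fintype (𝒮ℒ ⧸ (Γ.subgroupOf 𝒮ℒ)) := Fintype.ofFinite _
  set n := Fintype.card (𝒮ℒ ⧸ (Γ.subgroupOf 𝒮ℒ)) with hn
  let eq : (𝒮ℒ ⧸ (Γ.subgroupOf 𝒮ℒ)) ≃ Fin n := Fintype.equivFin _
  let y : Fin n → ℍ → ℂ := fun i => ⇑x ∣[w] rep (eq.symm i)
  let φ : Fin n → ℍ → ℂ := fun i => ⇑f ∣[k] rep (eq.symm i)
  let W : Matrix (Fin n) (Fin n) (ℍ → ℂ) := vandermonde y
  let S : Matrix (Fin n) (Fin n) (ℍ → ℂ) := Wᵀ * W
  let t : Fin n → ℍ → ℂ := Wᵀ *ᵥ φ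
  have h1' : (1 : ℝ) ∈ (𝒮ℒ : Subgroup (GL (Fin 2) ℝ)).strictPeriods := one_mem_strictPeriods_SL
  haveI := IS_gradedMonoid (Γ := 𝒮ℒ) h1'
  -- level one membership
  have hL1 : ∀ (a : ℤ) (g : ModularForm 𝒮ℒ a), (⇑g : ℍ → ℂ) ∈ IS 𝒮ℒ a := fun a g =>
    mem_IS_iff.mpr ⟨g, by rw [hE]; trivial, rfl⟩
  have hS : ∀ i j : Fin n, S i j ∈ IS 𝒮ℒ (((i : ℕ) : ℤ) * w + ((j : ℕ) : ℤ) * w) := by
    intro i j
    have : S i j = ⇑(ModularForm.trace 𝒮ℒ ((x.pow i).mul (x.pow j))) := by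
      rw [ModularForm.coe_trace]
      simp only [S, W, Matrix.mul_apply, transpose_apply, vandermonde_apply]
      rw [← Equiv.sum_comp eq.symm]
      refine Finset.sum_congr rfl fun l _ => ?_
      rw [quotientFunc_eq, coe_mul, mul_slash_SL2, coe_pow, coe_pow, pow_slash_SL2, pow_slash_SL2]
    rw [this]; exact hL1 _ _
  have ht : ∀ i : Fin n, t i ∈ IS 𝒮ℒ (((i : ℕ) : ℤ) * w + k) := by
    intro i
    have : t i = ⇑(ModularForm.trace 𝒮ℒ ((x.pow i).mul f)) := by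
      rw [ModularForm.coe_trace]
      simp only [t, W, Matrix.mulVec, dotProduct, transpose_apply, vandermonde_apply]
      rw [← Equiv.sum_comp eq.symm]
      refine Finset.sum_congr rfl fun l _ => ?_
      rw [quotientFunc_eq, coe_mul, mul_slash_SL2, coe_pow, pow_slash_SL2]
    rw [this]; exact hL1 _ _
  set m : ℤ := ∑ i : Fin n, ((i : ℕ) : ℤ) * w + ∑ j : Fin n, ((j : ℕ) : ℤ) * w with hm
  have hDmem : S.det ∈ IS 𝒮ℒ m := det_mem_graded (IS 𝒮ℒ) S _ _ hS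
  have hcmem : ∀ j : Fin n, cramer S t j ∈ IS 𝒮ℒ (∑ i : Fin n, ((i : ℕ) : ℤ) * w +
      ∑ l : Fin n, (if l = j then k else ((l : ℕ) : ℤ) * w)) := by
    intro j
    rw [cramer_apply]
    refine det_mem_graded (IS 𝒮ℒ) _ _ _ fun i l => ?_
    rw [updateCol_apply]
    split_ifs with h
    · exact ht i
    · exact hS i l
  have hwt : ∀ j : Fin n, ((j : ℕ) : ℤ) * w + (∑ i : Fin n, ((i : ℕ) : ℤ) * w +
      ∑ l : Fin n, (if l = j then k else ((l : ℕ) : ℤ) * w)) = m + k := by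
    intro j
    have : ∑ l : Fin n, (if l = j then k else ((l : ℕ) : ℤ) * w) =
        ∑ l : Fin n, ((l : ℕ) : ℤ) * w + (k - ((j : ℕ) : ℤ) * w) := by
      have h2 : ∀ l : Fin n, (if l = j then k else ((l : ℕ) : ℤ) * w) =
          ((l : ℕ) : ℤ) * w + (if l = j then k - ((j : ℕ) : ℤ) * w else 0) := by
        intro l
        split_ifs with h
        · subst h; ring
        · ring
      simp_rw [h2]
      rw [Finset.sum_add_distrib, Finset.sum_ite_eq' Finset.univ j]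
      simp
    rw [this, hm]; ring
  -- the distinguished coset
  let q₀ : 𝒮ℒ ⧸ (Γ.subgroupOf 𝒮ℒ) := ⟦1⟧
  have hq₀ : ∀ {a : ℤ} (g : ModularForm Γ a), (⇑g : ℍ → ℂ) ∣[a] rep q₀ = ⇑g := by
    intro a g
    rw [← quotientFunc_eq, SlashInvariantForm.quotientFunc_mk]
    simp
  have hy₀ : y (eq q₀) = ⇑x := by simp only [y, Equiv.symm_apply_apply]; exact hq₀ x
  have hφ₀ : φ (eq q₀) = ⇑f := by simp only [φ, Equiv.symm_apply_apply]; exact hq₀ f
  have hid : ∑ j : Fin n, (⇑x : ℍ → ℂ) ^ (j : ℕ) * cramer S t j = S.det * ⇑f := by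
    have := congrFun (vandermonde_cramer y φ) (eq q₀)
    simp only [Matrix.mulVec, dotProduct, vandermonde_apply, Pi.smul_apply, smul_eq_mul, hy₀,
      hφ₀] at this
    exact this
  haveI := IS_gradedMonoid (Γ := Γ) h1
  have hxmem : (⇑x : ℍ → ℂ) ∈ IS Γ w := Submodule.subset_span ⟨hx, x, rfl⟩
  have hbmem : S.det * ⇑f ∈ IS Γ (m + k) := by
    rw [← hid]
    refine Submodule.sum_mem _ fun j _ => ?_
    rw [← hwt j]
    refine SetLike.mul_mem_graded ?_ (IS_mono hΓ _ (hcmem j))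
    have := SetLike.pow_mem_graded (A := IS Γ) (j : ℕ) hxmem
    rwa [nsmul_eq_mul] at this
  obtain ⟨D, -, hD⟩ := mem_IS_iff.mp hDmem
  obtain ⟨b, hb, hb'⟩ := mem_IS_iff.mp hbmem
  refine ⟨m, D, b, ?_, hb, by rw [hD, hb']⟩
  -- nonvanishing of the discriminant
  intro hD0
  have hdet0 : S.det = 0 := by rw [← hD, hD0]; rfl
  set P : ℍ → ℂ := ∏ i : Fin n, ∏ j ∈ Finset.Ioi i, (y j - y i) with hP
  have hyd : ∀ i, MDiff (y i) := fun i => x.holo'.slash w _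
  have hPd : MDiff P :=
    MDifferentiable.prod fun i _ => MDifferentiable.prod fun j _ => (hyd j).sub (hyd i)
  have hSP : S.det = P * P := by
    simp only [S, det_mul, det_transpose, W, det_vandermonde, hP]
  rw [hSP] at hdet0
  have hP0 : P = 0 := by
    rcases (UpperHalfPlane.mul_eq_zero_iff hPd hPd).mp hdet0 with h | h <;> exact h
  obtain ⟨i, -, hi⟩ := (UpperHalfPlane.prod_eq_zero_iff (fun i _ =>
    MDifferentiable.prod fun j _ => (hyd j).sub (hyd i))).mp hP0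
  obtain ⟨j, hj, hij⟩ := (UpperHalfPlane.prod_eq_zero_iff (fun j _ => (hyd j).sub (hyd i))).mp hi
  have h3 := rep_injective_of_sep (⇑x) hsep _ _ (sub_eq_zero.mp hij)
  have h4 : j = i := eq.symm.injective h3
  rw [h4] at hj
  simp at hj

end main

end Fermat.Agent.S23
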