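import Mathlib
import Fermat.Prelude.Def_CuspForm_IntegralStructure

/-!
Shared definitions for the proof of S23 (integral structure on cusp forms) and S22.
-/

set_option autoImplicit false

namespace Fermat.Agent.S23

open UpperHalfPlane ModularForm
open scoped MatrixGroups Manifold

/-- All `q`-expansion coefficients (period `1`) of `F` are rational integers. -/
def IsIntQ (F : ℍ → ℂ) : Prop :=
  ∀ n : ℕ, ∃ a : ℤ, (qExpansion 1 F).coeff n = (a : ℂ)

/-- The complex span of the modular forms with integral `q`-expansion. -/
def intSpanMF (Γ : Subgroup (GL (Fin 2) ℝ)) [Γ.HasDetOne] (k : ℤ) :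
    Submodule ℂ (ModularForm Γ k) :=
  Submodule.span ℂ {g : ModularForm Γ k | IsIntQ g}

/-- A complex power series has bounded denominators: some nonzero integer multiple of it
has integer coefficients. -/
def BD (φ : PowerSeries ℂ) : Prop :=
  ∃ M : ℤ, M ≠ 0 ∧ ∃ ψ : PowerSeries ℤ, (M : ℂ) • φ = ψ.map (Int.castRingHom ℂ)

end Fermat.Agent.S23
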