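import Mathlib

set_option autoImplicit false

namespace Fermat.Agent.S23

open MvPolynomial

/-- Any ring automorphism of a field `K₀` mapping to `ℂ` extends to a ring automorphism of `ℂ`. -/
theorem exists_ringAut_extending (K₀ : Type) [Field K₀] [Algebra K₀ ℂ] (τ : K₀ ≃+* K₀) :
    ∃ σ : ℂ ≃+* ℂ, ∀ a : K₀, σ (algebraMap K₀ ℂ a) = algebraMap K₀ ℂ (τ a) := by
  obtain ⟨ι, x, hx⟩ := exists_isTranscendenceBasis' K₀ ℂ
  have := IsAlgClosed.isAlgClosure_of_transcendence_basis x hx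
  let e : Algebra.adjoin K₀ (Set.range x) ≃+* Algebra.adjoin K₀ (Set.range x) :=
    hx.1.aevalEquiv.symm.toRingEquiv.trans
      ((MvPolynomial.mapEquiv ι τ).trans hx.1.aevalEquiv.toRingEquiv)
  refine ⟨IsAlgClosure.equivOfEquiv ℂ ℂ e, fun a => ?_⟩
  have h1 : algebraMap K₀ ℂ a
      = algebraMap (Algebra.adjoin K₀ (Set.range x)) ℂ
          (algebraMap K₀ (Algebra.adjoin K₀ (Set.range x)) a) := rfl
  rw [h1, IsAlgClosure.equivOfEquiv_algebraMap]
  have h2 : e (algebraMap K₀ (Algebra.adjoin K₀ (Set.range x)) a)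
      = algebraMap K₀ (Algebra.adjoin K₀ (Set.range x)) (τ a) := by
    simp only [e, RingEquiv.trans_apply, AlgEquiv.coe_ringEquiv, AlgEquiv.commutes]
    rw [MvPolynomial.algebraMap_eq, MvPolynomial.mapEquiv_apply, MvPolynomial.map_C,
      ← MvPolynomial.algebraMap_eq, AlgEquiv.commutes]
    rfl
  rw [h2]
  rfl

theorem exists_ringAut_ne_of_isAlgebraic (F : Type) [Field F] [CharZero F] [Algebra F ℂ] (z : ℂ)
    (hz : IsAlgebraic F z) (hz' : z ∉ Set.range (algebraMap F ℂ)) : ∃ σ : ℂ ≃+* ℂ, σ z ≠ z := by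
  have hmem : z ∈ algebraicClosure F ℂ := mem_algebraicClosure_iff.mpr hz
  set z₀ : algebraicClosure F ℂ := ⟨z, hmem⟩ with hz₀
  have hnot : z₀ ∉ Set.range (algebraMap F (algebraicClosure F ℂ)) := by
    rintro ⟨a, ha⟩
    exact hz' ⟨a, by rw [IsScalarTower.algebraMap_apply F (algebraicClosure F ℂ) ℂ, ha]; rfl⟩
  rw [InfiniteGalois.mem_range_algebraMap_iff_fixed] at hnot
  push Not at hnot
  obtain ⟨τ, hτ⟩ := hnot
  obtain ⟨σ, hσ⟩ := exists_ringAut_extending (algebraicClosure F ℂ) τ.toRingEquiv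
  refine ⟨σ, fun h => hτ ?_⟩
  have := hσ z₀
  apply Subtype.ext
  have h3 : algebraMap (algebraicClosure F ℂ) ℂ z₀ = z := rfl
  rw [h3, h] at this
  exact this.symm

theorem exists_ringAut_ne_of_transcendental (z : ℂ) (hz : Transcendental ℚ z) :
    ∃ σ : ℂ ≃+* ℂ, σ z ≠ z := by
  have hs : AlgebraicIndepOn ℚ id ({z} : Set ℂ) := by
    have : AlgebraicIndependent ℚ (fun x : ({z} : Set ℂ) => (x : ℂ)) :=
      (algebraicIndependent_singleton_iff (⟨z, rfl⟩ : ({z} : Set ℂ))).mpr hz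
    exact this
  obtain ⟨t, hst, ht⟩ := exists_isTranscendenceBasis_superset hs
  have hzt : z ∈ t := hst rfl
  classical
  have := IsAlgClosed.isAlgClosure_of_transcendence_basis _ ht
  let c : t → ℚ := fun b => if (b : ℂ) = z then 1 else 0
  let sh : MvPolynomial t ℚ ≃ₐ[ℚ] MvPolynomial t ℚ :=
    AlgEquiv.ofAlgHom (aeval fun b => X b + C (c b)) (aeval fun b => X b - C (c b))
      (by ext; simp) (by ext; simp)
  let e : Algebra.adjoin ℚ (Set.range ((↑) : t → ℂ)) ≃+* Algebra.adjoin ℚ (Set.range ((↑) : t → ℂ)) :=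
    ht.1.aevalEquiv.symm.toRingEquiv.trans (sh.toRingEquiv.trans ht.1.aevalEquiv.toRingEquiv)
  refine ⟨IsAlgClosure.equivOfEquiv ℂ ℂ e, ?_⟩
  have h1 : z = algebraMap (Algebra.adjoin ℚ (Set.range ((↑) : t → ℂ))) ℂ
      (ht.1.aevalEquiv (X ⟨z, hzt⟩)) := by
    rw [AlgebraicIndependent.algebraMap_aevalEquiv]; simp
  have h2 : e (ht.1.aevalEquiv (X ⟨z, hzt⟩)) = ht.1.aevalEquiv (X ⟨z, hzt⟩ + C 1) := by
    simp [e, sh, c]
  intro h
  rw [h1, IsAlgClosure.equivOfEquiv_algebraMap, h2, AlgebraicIndependent.algebraMap_aevalEquiv,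
    AlgebraicIndependent.algebraMap_aevalEquiv] at h
  simp at h

theorem exists_ringAut_ne (z : ℂ) (hz : ∀ r : ℚ, z ≠ r) : ∃ σ : ℂ ≃+* ℂ, σ z ≠ z := by
  by_cases h : IsAlgebraic ℚ z
  · refine exists_ringAut_ne_of_isAlgebraic ℚ z h ?_
    rintro ⟨r, hr⟩
    exact hz r (by rw [← hr]; simp)
  · exact exists_ringAut_ne_of_transcendental z h

theorem span_rational_of_aut_stable (V : Submodule ℂ (ℕ → ℂ)) [FiniteDimensional ℂ V]
    (hV : ∀ σ : ℂ ≃+* ℂ, ∀ v ∈ V, (fun n => σ (v n)) ∈ V) :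
    V = Submodule.span ℂ {v | v ∈ V ∧ ∀ n, ∃ r : ℚ, v n = r} := by
  classical
  refine le_antisymm ?_ (Submodule.span_le.mpr fun v hv => hv.1)
  let φ : ℕ → Module.Dual ℂ V := fun n => (LinearMap.proj n).comp V.subtype
  have hspan : ⊤ ≤ Submodule.span ℂ (Set.range φ) := by
    rw [← Subspace.dualCoannihilator_dualAnnihilator_eq (W := Submodule.span ℂ (Set.range φ))]
    have : (Submodule.span ℂ (Set.range φ)).dualCoannihilator = ⊥ := by
      rw [eq_bot_iff]
      intro v hv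
      rw [Submodule.mem_dualCoannihilator] at hv
      have h0 : ∀ n, (v : ℕ → ℂ) n = 0 := fun n => hv (φ n) (Submodule.subset_span ⟨n, rfl⟩)
      rw [Submodule.mem_bot]
      exact Subtype.ext (funext h0)
    rw [this, Submodule.dualAnnihilator_bot]
  obtain ⟨ι, _, b, hb⟩ : ∃ (ι : Type) (_ : Fintype ι) (b : Module.Basis ι ℂ (Module.Dual ℂ V)),
      ∀ i, ∃ n, φ n = b i := by
    have hfin : Finite _ := Module.Finite.finite_basis (Module.Basis.ofSpan hspan)
    exact ⟨_, Fintype.ofFinite _, Module.Basis.ofSpan hspan,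
      fun i => Module.Basis.ofSpan_subset hspan ⟨i, rfl⟩⟩
  choose n hn using hb
  let w := fun i => (Module.evalEquiv ℂ V).symm (b.dualBasis i)
  have hw : ∀ i j, b j (w i) = if j = i then 1 else 0 := by
    intro i j
    rw [Module.apply_evalEquiv_symm_apply, Module.Basis.dualBasis_apply_self]
  -- the `b j` separate points
  have hsep : ∀ v v' : V, (∀ j, b j v = b j v') → v = v' := by
    intro v v' h
    rw [← sub_eq_zero, ← Module.forall_dual_apply_eq_zero_iff ℂ]
    intro f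
    rw [← b.sum_repr f, map_sub, LinearMap.sum_apply, LinearMap.sum_apply, sub_eq_zero]
    exact Finset.sum_congr rfl fun j _ => by rw [LinearMap.smul_apply, LinearMap.smul_apply, h j]
  have hrat : ∀ i, ∀ m, ∃ r : ℚ, (w i : ℕ → ℂ) m = r := by
    intro i m
    by_contra hcon
    push Not at hcon
    obtain ⟨σ, hσ⟩ := exists_ringAut_ne _ hcon
    apply hσ
    have hmem := hV σ (w i) (w i).2
    have : (⟨_, hmem⟩ : V) = w i := by
      apply hsep
      intro j
      have h1 := hw i j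
      rw [← hn j] at h1 ⊢
      simp only [φ, LinearMap.comp_apply, Submodule.subtype_apply, LinearMap.proj_apply] at h1 ⊢
      rw [h1]
      split_ifs <;> simp
    exact congrFun (congrArg Subtype.val this) m
  intro v hv
  have hv' : (⟨v, hv⟩ : V) = ∑ j, b j ⟨v, hv⟩ • w j := by
    apply hsep
    intro i
    simp [hw]
  have := congrArg Subtype.val hv'
  simp only at this
  rw [this]
  simp only [Submodule.coe_sum, Submodule.coe_smul]
  exact Submodule.sum_mem _ fun j _ => Submodule.smul_mem _ _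
    (Submodule.subset_span ⟨(w j).2, hrat j⟩)

end Fermat.Agent.S23
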