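import Fermat.Agent.S23.Analytic
import Fermat.Agent.S23.Cramer
import Fermat.Agent.S23.Descent
import Fermat.Agent.S23.BoundedDen
import Fermat.Agent.S23.LevelOne
import Fermat.Agent.S23.CharPoly
import Fermat.Prelude.Thm_ModularForm_sturm_bound_of_isArithmetic

/-!
Assembly: cusp forms on `Γ` are spanned by forms with integral `q`-expansion.
-/

set_option autoImplicit false

namespace Fermat.Agent.S23

open UpperHalfPlane ModularForm Function
open scoped MatrixGroups Manifold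

section relation

/-- The polynomial expression occurring in the analytic lemma, in an arbitrary commutative ring. -/
def relExpr {R : Type*} [CommRing R] (μ : ℕ) (e : ℕ → R) (b D : R) : R :=
  b ^ μ + ∑ i ∈ Finset.range μ, e (i + 1) * b ^ (μ - (i + 1)) * D ^ (i + 1)

lemma map_relExpr {R S : Type*} [CommRing R] [CommRing S] (Φ : R →+* S) (μ : ℕ) (e : ℕ → R)
    (b D : R) : Φ (relExpr μ e b D) = relExpr μ (fun i => Φ (e i)) (Φ b) (Φ D) := by
  simp [relExpr, map_add, map_sum, map_mul, map_pow]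

lemma relExpr_mul {R : Type*} [CommRing R] (μ : ℕ) (e : ℕ → R) (f D : R) :
    relExpr μ e (D * f) D = D ^ μ * relExpr μ e f 1 := by
  simp only [relExpr, one_pow, mul_one, mul_add, Finset.mul_sum, mul_pow]
  congr 1
  refine Finset.sum_congr rfl fun i hi => ?_
  have h1 : D ^ μ = D ^ (μ - (i + 1)) * D ^ (i + 1) := by
    rw [← pow_add]; congr 1; have := Finset.mem_range.mp hi; omega
  rw [h1]; ring

end relation

section sigma

variable {Γ : Subgroup (GL (Fin 2) ℝ)} [Γ.IsArithmetic] [Γ.HasDetOne]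

/-- A cusp form as a modular form. -/
def toMF {k : ℤ} (f : CuspForm Γ k) : ModularForm Γ k := ModularFormClass.modularForm f

@[simp] lemma coe_toMF {k : ℤ} (f : CuspForm Γ k) : ⇑(toMF f) = ⇑f := rfl

/-- Twisting a level one cusp form by an additive map. -/
lemma exists_twist_cusp {a : ℤ} (g : CuspForm 𝒮ℒ a) (L : ℂ →+ ℂ) :
    ∃ g' : CuspForm 𝒮ℒ a, ∀ n, (qExpansion 1 g').coeff n = L ((qExpansion 1 g).coeff n) := by
  obtain ⟨t, -, ht⟩ := exists_twist one_mem_strictPeriods_SL (toMF g)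
    (by rw [intSpanMF_levelOne]; trivial) L
  have h0 : (qExpansion 1 t).coeff 0 = 0 := by
    rw [ht 0, coe_toMF, CuspFormClass.qExpansion_coeff_zero g one_pos one_mem_strictPeriods_SL,
      map_zero]
  exact ⟨toCuspForm t h0, ht⟩

/-- **`σ`-stability.** The coefficientwise twist of a cusp form by a ring endomorphism of `ℂ` is
again a cusp form. -/
theorem exists_sigma_twist (hΓ : Γ ≤ 𝒮ℒ) (h1 : (1 : ℝ) ∈ Γ.strictPeriods) {w : ℤ}
    (x : ModularForm Γ w) (hx : IsIntQ x) (hsep : ∀ g ∈ 𝒮ℒ, (⇑x ∣[w] g = ⇑x) → g ∈ Γ) {k : ℤ}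
    (f : CuspForm Γ k) (σ : ℂ →+* ℂ) :
    ∃ h : CuspForm Γ k, ∀ n, (qExpansion 1 h).coeff n = σ ((qExpansion 1 f).coeff n) := by
  have h1' : (1 : ℝ) ∈ (𝒮ℒ : Subgroup (GL (Fin 2) ℝ)).strictPeriods := one_mem_strictPeriods_SL
  obtain ⟨m, D, b, hD, hb, hDf⟩ :=
    exists_denominator intSpanMF_levelOne hΓ h1 x hx hsep (toMF f)
  obtain ⟨μ, e, hμ, hrel⟩ := exists_monic_relation hΓ f
  obtain ⟨D', -, hD'⟩ := exists_twist h1' D (by rw [intSpanMF_levelOne]; trivial) σ.toAddMonoidHom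
  obtain ⟨b', -, hb'⟩ := exists_twist h1 b hb σ.toAddMonoidHom
  choose e' he' using fun i => exists_twist_cusp (e i) σ.toAddMonoidHom
  set Φ : PowerSeries ℂ →+* PowerSeries ℂ := PowerSeries.map σ with hΦ
  -- elements of `Nice`
  let Dn : Nice := ⟨D, coe_mem_Nice h1' D⟩
  let bn : Nice := ⟨b, coe_mem_Nice h1 b⟩
  let fn : Nice := ⟨f, coe_mem_Nice h1 f⟩
  let en : ℕ → Nice := fun i => ⟨e i, coe_mem_Nice h1' (e i)⟩
  let Dn' : Nice := ⟨D', coe_mem_Nice h1' D'⟩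
  let bn' : Nice := ⟨b', coe_mem_Nice h1 b'⟩
  let en' : ℕ → Nice := fun i => ⟨e' i, coe_mem_Nice h1' (e' i)⟩
  have hqD : qHom Dn' = Φ (qHom Dn) := by ext n; simpa [Dn, Dn', hΦ] using hD' n
  have hqb : qHom bn' = Φ (qHom bn) := by ext n; simpa [bn, bn', hΦ] using hb' n
  have hqe : ∀ i, qHom (en' i) = Φ (qHom (en i)) := fun i => by
    ext n; simpa [en, en', hΦ] using he' i n
  have hbn : bn = Dn * fn := Subtype.ext hDf.symm
  have hrel0 : relExpr μ en fn 1 = 0 := by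
    apply Subtype.ext
    simpa [relExpr, en, fn] using hrel
  have hrel1 : relExpr μ en' bn' Dn' = 0 := by
    apply qHom_injective
    rw [map_zero, ← AlgHom.coe_toRingHom, map_relExpr]
    simp only [AlgHom.coe_toRingHom, hqD, hqb, hqe]
    rw [← map_relExpr Φ, ← AlgHom.coe_toRingHom, ← map_relExpr, hbn, relExpr_mul, hrel0, mul_zero,
      map_zero, map_zero]
  have hD'0 : D' ≠ 0 := by
    intro h0
    apply hD
    have h2 : qHom Dn' = 0 := by
      simp only [qHom_apply, Dn', h0]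
      exact qExpansion_zero 1
    rw [hqD] at h2
    have h3 : qHom Dn = 0 :=
      (map_eq_zero_iff Φ (PowerSeries.map_injective σ σ.injective)).mp h2
    exact (ModularForm.qExpansion_eq_zero_iff one_pos h1' D).mp h3
  obtain ⟨h, hh⟩ := exists_cuspForm_of_relation hΓ D' hD'0 b' μ hμ e' (by
    have := congrArg Subtype.val hrel1
    simpa [relExpr, en', bn', Dn'] using this)
  refine ⟨h, fun n => ?_⟩
  let hn : Nice := ⟨h, coe_mem_Nice h1 h⟩
  have h4 : Dn' * hn = bn' := Subtype.ext hh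
  have h5 : qHom Dn' * qHom hn = qHom Dn' * Φ (qHom fn) := by
    rw [← map_mul, h4, hqb, hbn, map_mul, map_mul, hqD]
  have h6 : qHom Dn' ≠ 0 := by
    intro h0
    exact hD'0 ((ModularForm.qExpansion_eq_zero_iff one_pos h1' D').mp h0)
  have h7 := mul_left_cancel₀ h6 h5
  have := congrArg (PowerSeries.coeff n) h7
  simpa [hn, fn, hΦ] using this

end sigma

section descent

variable {Γ : Subgroup (GL (Fin 2) ℝ)} [Γ.IsArithmetic] [Γ.HasDetOne]

/-- The `q`-expansion coefficients as a linear map. -/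
noncomputable def qLM (h1 : (1 : ℝ) ∈ Γ.strictPeriods) (k : ℤ) : CuspForm Γ k →ₗ[ℂ] (ℕ → ℂ) where
  toFun f n := (qExpansion 1 f).coeff n
  map_add' f g := by
    ext n; rw [FunLike.coe_add, ModularForm.qExpansion_add one_pos h1]; simp
  map_smul' c f := by
    ext n; rw [FunLike.coe_smul, ModularForm.qExpansion_smul one_pos h1]; simp

lemma qLM_apply (h1 : (1 : ℝ) ∈ Γ.strictPeriods) (k : ℤ) (f : CuspForm Γ k) (n : ℕ) :
    qLM h1 k f n = (qExpansion 1 f).coeff n := rfl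

lemma qLM_injective (h1 : (1 : ℝ) ∈ Γ.strictPeriods) (k : ℤ) : Injective (qLM h1 k) := by
  intro f g hfg
  apply DFunLike.coe_injective
  refine Nice.eq_of_qExpansion_eq (coe_mem_Nice h1 f) (coe_mem_Nice h1 g) ?_
  ext n
  exact congrFun hfg n

lemma finiteDimensional_cuspForm (h1 : (1 : ℝ) ∈ Γ.strictPeriods) (k : ℤ) :
    FiniteDimensional ℂ (CuspForm Γ k) := by
  set B : ℕ := (k * Γ.relIndex 𝒮ℒ).toNat / 12 with hB
  let T : CuspForm Γ k →ₗ[ℂ] (Fin (B + 1) → ℂ) :=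
    (LinearMap.funLeft ℂ ℂ (fun i : Fin (B + 1) => (i : ℕ))).comp (qLM h1 k)
  have hT : Injective T := by
    rw [injective_iff_map_eq_zero]
    intro f hf
    have h0 : toMF f = 0 := by
      apply ModularForm.sturm_bound_of_isArithmetic h1
      have h2 : ((B + 1 : ℕ) : ℕ∞) ≤ (qExpansion 1 (toMF f)).order := by
        refine PowerSeries.le_order _ _ fun i hi => ?_
        have hi' : i < B + 1 := by exact_mod_cast hi
        exact congrFun hf ⟨i, hi'⟩
      refine lt_of_lt_of_le ?_ h2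
      exact_mod_cast Nat.lt_succ_self B
    ext z
    exact congrFun (congrArg DFunLike.coe h0) z
  exact FiniteDimensional.of_injective T hT

/-- **Rational structure.** -/
theorem span_rational_cuspForm (hΓ : Γ ≤ 𝒮ℒ) (h1 : (1 : ℝ) ∈ Γ.strictPeriods) {w : ℤ}
    (x : ModularForm Γ w) (hx : IsIntQ x) (hsep : ∀ g ∈ 𝒮ℒ, (⇑x ∣[w] g = ⇑x) → g ∈ Γ) (k : ℤ) :
    Submodule.span ℂ {f : CuspForm Γ k | ∀ n, ∃ r : ℚ, (qExpansion 1 f).coeff n = (r : ℂ)} = ⊤ := by
  haveI := finiteDimensional_cuspForm (Γ := Γ) h1 k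
  set V : Submodule ℂ (ℕ → ℂ) := LinearMap.range (qLM h1 k) with hV
  have hstab : ∀ σ : ℂ ≃+* ℂ, ∀ v ∈ V, (fun n => σ (v n)) ∈ V := by
    rintro σ _ ⟨f, rfl⟩
    obtain ⟨h, hh⟩ := exists_sigma_twist hΓ h1 x hx hsep f (σ : ℂ →+* ℂ)
    exact ⟨h, funext hh⟩
  have key := span_rational_of_aut_stable V hstab
  have hset : {v | v ∈ V ∧ ∀ n, ∃ r : ℚ, v n = (r : ℂ)} =
      (qLM h1 k) '' {f : CuspForm Γ k | ∀ n, ∃ r : ℚ, (qExpansion 1 f).coeff n = (r : ℂ)} := by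
    ext v
    constructor
    · rintro ⟨⟨f, rfl⟩, hv⟩
      exact ⟨f, hv, rfl⟩
    · rintro ⟨f, hf, rfl⟩
      exact ⟨⟨f, rfl⟩, hf⟩
  rw [hset, ← Submodule.map_span] at key
  rw [eq_top_iff]
  intro f _
  have hf : qLM h1 k f ∈ V := ⟨f, rfl⟩
  rw [key] at hf
  obtain ⟨g, hg, hgf⟩ := hf
  rwa [← qLM_injective h1 k hgf]

end descent

section denominators

/-- Coefficientwise application of an additive map. -/
noncomputable def tw (L : ℂ →+ ℂ) (A : PowerSeries ℂ) : PowerSeries ℂ :=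
  PowerSeries.mk fun n => L (A.coeff n)

@[simp] lemma coeff_tw (L : ℂ →+ ℂ) (A : PowerSeries ℂ) (n : ℕ) :
    (tw L A).coeff n = L (A.coeff n) := by simp [tw]

lemma tw_add (L : ℂ →+ ℂ) (A B : PowerSeries ℂ) : tw L (A + B) = tw L A + tw L B := by
  ext n; simp

lemma tw_zero (L : ℂ →+ ℂ) : tw L 0 = 0 := by ext n; simp

lemma tw_sum (L : ℂ →+ ℂ) {ι : Type*} (s : Finset ι) (A : ι → PowerSeries ℂ) :
    tw L (∑ i ∈ s, A i) = ∑ i ∈ s, tw L (A i) := by
  ext n; simp [map_sum]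

/-- A power series with rational coefficients. -/
def IsRatS (φ : PowerSeries ℂ) : Prop := ∀ n, ∃ r : ℚ, φ.coeff n = (r : ℂ)

lemma isRatS_iff {φ : PowerSeries ℂ} :
    IsRatS φ ↔ ∃ ψ : PowerSeries ℚ, ψ.map (algebraMap ℚ ℂ) = φ := by
  constructor
  · intro h
    choose a ha using h
    exact ⟨PowerSeries.mk a, by ext n; simp [ha]⟩
  · rintro ⟨ψ, rfl⟩ n
    exact ⟨ψ.coeff n, by simp⟩

lemma IsRatS.pow {φ : PowerSeries ℂ} (h : IsRatS φ) (j : ℕ) : IsRatS (φ ^ j) := by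
  rw [isRatS_iff] at *
  obtain ⟨ψ, rfl⟩ := h
  exact ⟨ψ ^ j, map_pow _ _ _⟩

lemma tw_mul_rat (L : ℂ →+ ℂ) (A : PowerSeries ℂ) {φ : PowerSeries ℂ} (hφ : IsRatS φ) :
    tw L (A * φ) = tw L A * φ := by
  ext n
  simp only [coeff_tw, PowerSeries.coeff_mul, map_sum]
  refine Finset.sum_congr rfl fun p _ => ?_
  obtain ⟨r, hr⟩ := hφ p.2
  rw [hr]
  have : A.coeff p.1 * (r : ℂ) = r • A.coeff p.1 := by
    rw [Rat.smul_def, mul_comm]
  rw [this, map_rat_smul, Rat.smul_def, mul_comm]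

lemma tw_rat (L : ℂ →+ ℂ) (hL : L 1 = 1) {φ : PowerSeries ℂ} (hφ : IsRatS φ) : tw L φ = φ := by
  have := tw_mul_rat L 1 hφ
  rw [one_mul] at this
  rw [this]
  have h1 : tw L 1 = 1 := by
    ext n
    rw [coeff_tw, PowerSeries.coeff_one]
    split_ifs <;> simp [hL]
  rw [h1, one_mul]

/-- A rational valued additive map which does not vanish at a given nonzero number. -/
lemma exists_rat_functional (d : ℂ) (hd : d ≠ 0) :
    ∃ L : ℂ →+ ℂ, (∀ z, ∃ r : ℚ, L z = (r : ℂ)) ∧ L d = 1 := by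
  obtain ⟨φ, hφ⟩ : ∃ φ : Module.Dual ℚ ℂ, φ d ≠ 0 := by
    by_contra h
    push Not at h
    exact hd ((Module.forall_dual_apply_eq_zero_iff ℚ d).mp h)
  refine ⟨(algebraMap ℚ ℂ).toAddMonoidHom.comp ((φ d)⁻¹ • φ).toAddMonoidHom,
    fun z => ⟨((φ d)⁻¹ • φ) z, rfl⟩, ?_⟩
  simp [hφ]

variable {Γ : Subgroup (GL (Fin 2) ℝ)} [Γ.IsArithmetic] [Γ.HasDetOne]

/-- **Bounded denominators.** -/
theorem BD_of_rational (hΓ : Γ ≤ 𝒮ℒ) (h1 : (1 : ℝ) ∈ Γ.strictPeriods) {w : ℤ}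
    (x : ModularForm Γ w) (hx : IsIntQ x) (hsep : ∀ g ∈ 𝒮ℒ, (⇑x ∣[w] g = ⇑x) → g ∈ Γ) {k : ℤ}
    (f : CuspForm Γ k) (hf : IsRatS (qExpansion 1 f)) : BD (qExpansion 1 f) := by
  have h1' : (1 : ℝ) ∈ (𝒮ℒ : Subgroup (GL (Fin 2) ℝ)).strictPeriods := one_mem_strictPeriods_SL
  obtain ⟨m, D, b, hD, hb, hDf⟩ :=
    exists_denominator intSpanMF_levelOne hΓ h1 x hx hsep (toMF f)
  obtain ⟨μ, e, hμ, hrel⟩ := exists_monic_relation hΓ f
  let Dn : Nice := ⟨D, coe_mem_Nice h1' D⟩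
  let bn : Nice := ⟨b, coe_mem_Nice h1 b⟩
  let fn : Nice := ⟨f, coe_mem_Nice h1 f⟩
  let en : ℕ → Nice := fun i => ⟨e i, coe_mem_Nice h1' (e i)⟩
  have hbn : Dn * fn = bn := Subtype.ext hDf
  have hrel0 : relExpr μ en fn 1 = 0 := by
    apply Subtype.ext
    simpa [relExpr, en, fn] using hrel
  have hq0 : qHom Dn ≠ 0 := fun h0 => hD ((ModularForm.qExpansion_eq_zero_iff one_pos h1' D).mp h0)
  obtain ⟨n₀, hn₀⟩ : ∃ n, (qHom Dn).coeff n ≠ 0 := by
    by_contra h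
    push Not at h
    exact hq0 (PowerSeries.ext h)
  obtain ⟨L, hLrat, hLd⟩ := exists_rat_functional _ hn₀
  obtain ⟨L', hL'rat, hL'1⟩ := exists_rat_functional 1 one_ne_zero
  have hfq : IsRatS (qHom fn) := hf
  refine BD_of_integral (qExpansion 1 f) (tw L (qHom Dn)) (tw L (qHom bn))
    (BD_twist h1' D (by rw [intSpanMF_levelOne]; trivial) L hLrat) (BD_twist h1 b hb L hLrat) ?_ ?_
    μ (fun i => tw L' (qHom (en i)))
    (fun i => BD_twist h1' (toMF (e i)) (by rw [intSpanMF_levelOne]; trivial) L' hL'rat) ?_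
  · intro h0
    have := congrArg (PowerSeries.coeff n₀) h0
    rw [coeff_tw, hLd] at this
    simp at this
  · show tw L (qHom Dn) * qHom fn = _
    rw [← tw_mul_rat L _ hfq, ← map_mul, hbn]
  · show (qHom fn) ^ μ + ∑ i ∈ Finset.range μ, tw L' (qHom (en (i + 1))) * (qHom fn) ^ (μ - (i + 1))
      = 0
    have h2 := congrArg (fun F => tw L' (qHom F)) hrel0
    simp only [relExpr, one_pow, mul_one, map_add, map_sum, map_mul, map_pow, map_zero, tw_add,
      tw_sum, tw_zero] at h2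
    rw [tw_rat L' hL'1 (hfq.pow μ)] at h2
    rw [← h2]
    congr 1
    refine Finset.sum_congr rfl fun i _ => ?_
    rw [tw_mul_rat L' _ (hfq.pow _)]

/-- **Integral structure.** Cusp forms on `Γ` are spanned by those with integral `q`-expansion. -/
theorem span_integral_cuspForm (hΓ : Γ ≤ 𝒮ℒ) (h1 : (1 : ℝ) ∈ Γ.strictPeriods) {w : ℤ}
    (x : ModularForm Γ w) (hx : IsIntQ x) (hsep : ∀ g ∈ 𝒮ℒ, (⇑x ∣[w] g = ⇑x) → g ∈ Γ) (k : ℤ) :
    Submodule.span ℂ {f : CuspForm Γ k | IsIntQ f} = ⊤ := by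
  rw [eq_top_iff, ← span_rational_cuspForm hΓ h1 x hx hsep k, Submodule.span_le]
  intro f hf
  obtain ⟨M, hM, ψ, hψ⟩ := BD_of_rational hΓ h1 x hx hsep f hf
  have hMc : (M : ℂ) ≠ 0 := by exact_mod_cast hM
  have hint : IsIntQ ⇑((M : ℂ) • f) := by
    rw [isIntQ_iff_map]
    refine ⟨ψ, ?_⟩
    rw [FunLike.coe_smul, ModularForm.qExpansion_smul one_pos h1, hψ]
  have : f = (M : ℂ)⁻¹ • ((M : ℂ) • f) := by rw [smul_smul, inv_mul_cancel₀ hMc, one_smul]
  rw [this]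
  exact Submodule.smul_mem _ _ (Submodule.subset_span hint)

end denominators

end Fermat.Agent.S23
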